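import Fermat.Agent.HasseArf.Lower

/-!
# The theorem of Hasse and Arf: statements
-/

set_option autoImplicit false

noncomputable section

namespace Fermat.Agent.HasseArf

variable {G L : Type*} [Field L] [CommGroup G] [Finite G] [MulSemiringAction G L]
  [FaithfulSMul G L] (v : AddValuation L (WithTop ℤ))
  (hv : ∀ (g : G) (x : L), v (g • x) = v x) (hπ : ∃ π : L, v π = ((1 : ℤ) : WithTop ℤ))
  (hperf : ∀ p : ℕ, p.Prime → 0 < v (p : L) → ∀ x, 0 ≤ v x → ∃ y, 0 < v (x - y ^ p))

include hπ hperf in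
/-- At a jump `u` of the lower numbering `φ u` is an integer. -/
theorem card_dvd_sum_card {u : ℕ} (hu : lowerGroup v hv u ≠ lowerGroup v hv (u + 1)) :
    Nat.card (lowerGroup v hv 0) ∣ ∑ i ∈ Finset.Icc 1 u, Nat.card (lowerGroup v hv i) := by
  classical
  obtain ⟨π, hπ⟩ := hπ
  set G₀ := lowerGroup v hv 0 with hG₀
  have : Fintype G₀ := Fintype.ofFinite G₀
  have hv₀ : ∀ (g : G₀) (x : L), v (g • x) = v x := fun g x => hv g x
  have htriv : ∀ (g : G₀) (x : L), 0 ≤ v x → 0 < v (g • x - x) := fun g x hx =>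
    lt_of_lt_of_le (WithTop.coe_lt_coe.2 (show (0 : ℤ) < ((0 + 1 : ℕ) : ℤ) by omega)) (g.2 x hx)
  let T : TotallyRamified G₀ L :=
    { v := v
      smul_v := hv₀
      π := π
      v_π := hπ
      rep := fun x hx => exists_fixed_rep v hv₀ htriv hperf hx.ge }
  have hfaith : ∀ g : G₀, T.ij g = ⊤ → g = 1 := fun g hg => by
    refine Subtype.ext (eq_of_smul_eq_smul (α := L) fun x => ?_)
    have hint : ∀ y : L, 0 ≤ v y → g • y = y := fun y hy => by
      have h := T.ij_le_v_smul_sub g hy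
      rw [hg, top_le_iff, AddValuation.top_iff, sub_eq_zero] at h
      exact h
    change g • x = (1 : G) • x
    rw [one_smul]
    rcases le_total 0 (v x) with hx | hx
    · exact hint x hx
    · have h0 : 0 ≤ v x⁻¹ := by
        rw [AddValuation.map_inv]
        revert hx
        generalize v x = q
        induction q using WithTop.recTopCoe with
        | top => exact fun _ => le_top
        | coe q =>
          intro hx
          rw [← WithTop.coe_zero, WithTop.coe_le_coe] at hx
          rw [← WithTop.LinearOrderedAddCommGroup.coe_neg, ← WithTop.coe_zero, WithTop.coe_le_coe]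
          omega
      have := hint _ h0
      rwa [smul_inv'', inv_inj] at this
  have hmem : ∀ (g : G₀) (i : ℕ),
      ((g : G) ∈ lowerGroup v hv i ↔ (((i + 1 : ℕ) : ℤ) : WithTop ℤ) ≤ T.ij g) := fun g i =>
    ⟨fun h => h π (le_trans (WithTop.coe_le_coe.2 zero_le_one) hπ.ge),
      fun h x hx => le_trans h (T.ij_le_v_smul_sub g hx)⟩
  obtain ⟨g, hg, hg'⟩ := SetLike.not_le_iff_exists.1 fun hle : lowerGroup v hv u ≤
    lowerGroup v hv (u + 1) => hu (le_antisymm hle (lowerGroup_antitone v hv u.le_succ))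
  lift g to G₀ using lowerGroup_antitone v hv (Nat.zero_le u) hg
  have hb : T.ij g = (((u + 1 : ℕ) : ℤ) : WithTop ℤ) := by
    rw [hmem] at hg hg'
    refine le_antisymm (not_lt.1 fun hlt => hg' (le_trans (WithTop.coe_le_coe.2 ?_)
      (add_one_le_of_lt_withTop hlt))) hg
    push_cast
    omega
  have hdvd := T.card_dvd_sum_cutAt hfaith hb
  set c : G₀ → ℤ := fun x => T.cutAt ((u + 1 : ℕ) : ℤ) x with hc
  have hc1 : ∀ x, 1 ≤ c x ∧ c x ≤ u + 1 := fun x => by
    have h1 := T.coe_cutAt ((u + 1 : ℕ) : ℤ) x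
    refine ⟨WithTop.coe_le_coe.1 ?_, WithTop.coe_le_coe.1 ?_⟩
    · rw [hc, h1]
      exact le_min (T.one_le_ij x) (WithTop.coe_le_coe.2 (by omega))
    · rw [hc, h1]
      refine le_trans (min_le_right _ _) (WithTop.coe_le_coe.2 ?_)
      push_cast
      rfl
  have hcount : ∀ x : G₀,
      (((Finset.Icc 1 u).filter fun i => (x : G) ∈ lowerGroup v hv i).card : ℤ) = c x - 1 := by
    intro x
    have e : ((Finset.Icc 1 u).filter fun i => (x : G) ∈ lowerGroup v hv i) =
        Finset.Icc 1 (c x - 1).toNat := by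
      ext i
      have hle : ((x : G) ∈ lowerGroup v hv i ∧ i ≤ u) ↔ ((i + 1 : ℕ) : ℤ) ≤ c x := by
        rw [hmem, ← (WithTop.coe_le_coe :
            (((i + 1 : ℕ) : ℤ) : WithTop ℤ) ≤ (c x : WithTop ℤ) ↔ ((i + 1 : ℕ) : ℤ) ≤ c x),
          hc, T.coe_cutAt, le_min_iff, WithTop.coe_le_coe]
        exact and_congr_right fun _ => by push_cast; omega
      have := hc1 x
      simp only [Finset.mem_filter, Finset.mem_Icc]
      constructor
      · rintro ⟨⟨h1, h2⟩, h3⟩
        have := hle.1 ⟨h3, h2⟩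
        omega
      · rintro ⟨h1, h2⟩
        have h4 := hle.2 (by omega)
        exact ⟨⟨h1, h4.2⟩, h4.1⟩
    rw [e, Nat.card_Icc]
    have := hc1 x
    omega
  have hcard : ∀ i, Nat.card (lowerGroup v hv i) =
      (Finset.univ.filter fun x : G₀ => (x : G) ∈ lowerGroup v hv i).card := fun i => by
    rw [← Fintype.card_subtype, ← Nat.card_eq_fintype_card]
    exact Nat.card_congr
      { toFun := fun x => ⟨⟨x.1, lowerGroup_antitone v hv (Nat.zero_le i) x.2⟩, x.2⟩
        invFun := fun x => ⟨(x.1 : G), x.2⟩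
        left_inv := fun _ => rfl
        right_inv := fun _ => rfl }
  have hsum : ((∑ i ∈ Finset.Icc 1 u, Nat.card (lowerGroup v hv i) : ℕ) : ℤ) =
      ∑ x : G₀, c x - (Fintype.card G₀ : ℤ) := by
    have e : ∑ x : G₀, c x - (Fintype.card G₀ : ℤ) = ∑ x : G₀, (c x - 1) := by
      rw [Finset.sum_sub_distrib, Finset.sum_const, Finset.card_univ, nsmul_one]
    rw [e, Finset.sum_congr rfl fun x _ => (hcount x).symm, ← Nat.cast_sum]
    simp only [hcard, Finset.card_filter]
    rw [Finset.sum_comm]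
  rw [Nat.card_eq_fintype_card, ← Int.natCast_dvd_natCast, hsum]
  exact dvd_sub hdvd dvd_rfl

include hπ hperf in
/-- **Hasse–Arf**: the jumps of the upper numbering are integers. -/
theorem upper_jump_eq_natCast {w : ℝ} (hw : 0 ≤ w)
    (hjump : ∀ ε > 0, upperGroup v hv (w + ε) ≠ upperGroup v hv w) : ∃ z : ℕ, w = z := by
  obtain ⟨u, hu, rfl⟩ := exists_herbrandPhi_eq v hv hw
  have key : ∀ u', u < u' → lowerGroupReal v hv u' ≠ lowerGroupReal v hv u := fun u' h e =>
    hjump _ (sub_pos.2 (herbrandPhi_lt v hv hu h)) (by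
      rw [add_sub_cancel, upperGroup_herbrandPhi v hv hu,
        upperGroup_herbrandPhi v hv (hu.trans h.le), e])
  rcases (Nat.le_ceil u).eq_or_lt with he | hlt
  · set n := ⌈u⌉₊ with hn
    have hne : lowerGroup v hv n ≠ lowerGroup v hv (n + 1) := fun e => key ((n + 1 : ℕ) : ℝ)
      (by rw [he]; exact_mod_cast n.lt_succ_self)
      (by rw [lowerGroupReal, lowerGroupReal, Nat.ceil_natCast, ← hn, e])
    obtain ⟨z, hz⟩ := card_dvd_sum_card v hv hπ hperf hne
    refine ⟨z, ?_⟩
    have hpos : (0 : ℝ) < Nat.card (lowerGroup v hv 0) := by exact_mod_cast Nat.card_pos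
    have hIcc : ∑ i ∈ Finset.range n, Nat.card (lowerGroup v hv (i + 1)) =
        ∑ i ∈ Finset.Icc 1 n, Nat.card (lowerGroup v hv i) := by
      refine Finset.sum_nbij' (· + 1) (· - 1) ?_ ?_ ?_ ?_ fun i _ => rfl
      all_goals (intro i hi; simp at hi ⊢; try omega)
    rw [he, herbrandPhi_natCast]
    simp only [slope]
    rw [← Finset.sum_div, div_eq_iff hpos.ne', ← Nat.cast_sum, hIcc, hz]
    push_cast
    ring
  · exact absurd (by rw [lowerGroupReal, lowerGroupReal, Nat.ceil_natCast]) (key _ hlt)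

end Fermat.Agent.HasseArf
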