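import Fermat.Agent.HasseArf.Setting
import Mathlib.GroupTheory.Sylow
import Mathlib.GroupTheory.Coset.Card
import Mathlib.Algebra.Algebra.Basic

/-!
# Fixed representatives of the residue field

For a finite group acting trivially on a perfect residue field every residue has a representative
fixed by the group: a norm over a Sylow subgroup followed by an average over its cosets.
-/

set_option autoImplicit false

noncomputable section

namespace Fermat.Agent.HasseArf

variable {L : Type*} [Field L] (v : AddValuation L (WithTop ℤ))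

theorem pos_mul_sub_mul {a b c d : L} (hc : 0 ≤ v c) (hb : 0 ≤ v b) (hab : 0 < v (a - b))
    (hcd : 0 < v (c - d)) : 0 < v (a * c - b * d) := by
  rw [show a * c - b * d = (a - b) * c + b * (c - d) by ring]
  refine AddValuation.map_lt_add _ ?_ ?_ <;> rw [AddValuation.map_mul]
  · exact lt_of_lt_of_le hab (le_add_of_nonneg_right hc)
  · exact lt_of_lt_of_le hcd (le_add_of_nonneg_left hb)

theorem pos_pow_sub_pow {a b : L} (ha : 0 ≤ v a) (hb : 0 ≤ v b) (hab : 0 < v (a - b)) :
    ∀ n : ℕ, 0 < v (a ^ n - b ^ n)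
  | 0 => by rw [pow_zero, pow_zero, sub_self, AddValuation.map_zero]; exact WithTop.coe_lt_top _
  | n + 1 => by
    rw [pow_succ', pow_succ']
    refine pos_mul_sub_mul v ?_ hb hab (pos_pow_sub_pow ha hb hab n)
    rw [AddValuation.map_pow]
    exact nsmul_nonneg ha n

theorem nonneg_of_pos_sub {a b : L} (ha : 0 ≤ v a) (hab : 0 < v (a - b)) : 0 ≤ v b := by
  rw [show b = a - (a - b) by ring]
  exact AddValuation.map_le_sub _ ha hab.le

theorem nonneg_of_pow_nonneg {a : L} {n : ℕ} (hn : n ≠ 0) (h : 0 ≤ v (a ^ n)) : 0 ≤ v a := by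
  rw [AddValuation.map_pow] at h
  by_contra hlt
  exact absurd h (not_le.2 (by
    obtain ⟨b, hb⟩ : ∃ b : ℤ, v a = (b : WithTop ℤ) :=
      ⟨(v a).untop (fun e => hlt (e ▸ le_top)), (WithTop.coe_untop _ _).symm⟩
    rw [hb, ← WithTop.coe_zero, WithTop.coe_le_coe, not_le] at hlt
    rw [hb, ← WithTop.coe_nsmul, ← WithTop.coe_zero, WithTop.coe_lt_coe, nsmul_eq_mul]
    exact mul_neg_of_pos_of_neg (by exact_mod_cast Nat.pos_of_ne_zero hn) hlt))

theorem natCast_val_nonneg : ∀ n : ℕ, 0 ≤ v (n : L)
  | 0 => by rw [Nat.cast_zero, AddValuation.map_zero]; exact le_top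
  | n + 1 => by
    rw [Nat.cast_succ]
    exact AddValuation.map_le_add _ (natCast_val_nonneg n) (AddValuation.map_one v).ge

theorem natCast_val_eq_zero {n : ℕ} (hn : n ≠ 0)
    (h : ∀ q : ℕ, q.Prime → q ∣ n → ¬0 < v (q : L)) : v (n : L) = 0 := by
  induction n using Nat.recOnMul with
  | zero => exact absurd rfl hn
  | one => rw [Nat.cast_one, AddValuation.map_one]
  | prime p hp => exact le_antisymm (not_lt.1 (h p hp dvd_rfl)) (natCast_val_nonneg v p)
  | mul a b ha hb =>
    rw [Nat.cast_mul, AddValuation.map_mul,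
      ha (fun e => hn (by rw [e, zero_mul])) fun q hq hd => h q hq (hd.mul_right b),
      hb (fun e => hn (by rw [e, mul_zero])) fun q hq hd => h q hq (hd.mul_left a), add_zero]

/-- Two natural primes cannot both have positive valuation. -/
theorem prime_eq_of_val_pos {p q : ℕ} (hp : p.Prime) (hq : q.Prime) (hvp : 0 < v (p : L))
    (hvq : 0 < v (q : L)) : p = q := by
  by_contra hne
  have h := congrArg (fun z : ℤ => (z : L))
    (Nat.gcd_eq_gcd_ab p q)
  rw [show Nat.gcd p q = 1 from (Nat.coprime_primes hp hq).2 hne] at h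
  push_cast at h
  have hint : ∀ z : ℤ, 0 ≤ v (z : L) := fun z => by
    rcases Int.eq_nat_or_neg z with ⟨n, rfl | rfl⟩
    · simpa using natCast_val_nonneg v n
    · simpa using natCast_val_nonneg v n
  have h1 : 0 < v (1 : L) := by
    rw [h]
    refine AddValuation.map_lt_add _ ?_ ?_ <;> rw [AddValuation.map_mul]
    · exact lt_of_lt_of_le hvp (le_add_of_nonneg_right (hint _))
    · exact lt_of_lt_of_le hvq (le_add_of_nonneg_right (hint _))
  rw [AddValuation.map_one] at h1
  exact lt_irrefl _ h1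

variable {G : Type*} [Group G] [Finite G] [MulSemiringAction G L]

theorem exists_fixed_of_subgroup (hv : ∀ (g : G) x, v (g • x) = v x)
    (htriv : ∀ (g : G) x, 0 ≤ v x → 0 < v (g • x - x)) (P : Subgroup G) {x y : L} (hx : 0 ≤ v x)
    (hy : 0 < v (x - y ^ Nat.card P)) (hm : v (P.index : L) = 0) :
    ∃ c : L, (∀ g : G, g • c = c) ∧ 0 < v (x - c) := by
  classical
  have : Fintype G := Fintype.ofFinite G
  have : Fintype P := Fintype.ofFinite P
  have : Fintype (G ⧸ P) := Fintype.ofFinite _
  have hy0 : 0 ≤ v y := nonneg_of_pow_nonneg v Nat.card_pos.ne' (nonneg_of_pos_sub v hx hy)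
  set d := ∏ h : P, (h : G) • y with hd
  have hdfix : ∀ h ∈ P, h • d = d := fun h hh => by
    rw [hd, Finset.smul_prod']
    exact Fintype.prod_equiv (Equiv.mulLeft ⟨h, hh⟩) _ _ fun a => by simp [mul_smul]
  have hprod : ∀ t : Finset P, 0 ≤ v (∏ h ∈ t, (h : G) • y) ∧
      0 < v (∏ h ∈ t, (h : G) • y - y ^ t.card) := fun t => by
    induction t using Finset.induction with
    | empty => simp [AddValuation.map_one, AddValuation.map_zero]
    | insert a t ha ih =>
      rw [Finset.prod_insert ha, Finset.card_insert_of_notMem ha, pow_succ']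
      exact ⟨by rw [AddValuation.map_mul, hv]; exact add_nonneg hy0 ih.1,
        pos_mul_sub_mul v ih.1 hy0 (htriv _ _ hy0) ih.2⟩
  obtain ⟨hd0, hdy⟩ := hprod Finset.univ
  rw [Finset.card_univ, ← Nat.card_eq_fintype_card] at hdy
  have hdx : 0 < v (d - x) := by
    rw [show d - x = (d - y ^ Nat.card P) - (x - y ^ Nat.card P) by ring]
    exact lt_of_lt_of_le (lt_min hdy hy) (AddValuation.map_sub _ _ _)
  have hmne : (P.index : L) ≠ 0 := fun h => by
    rw [h, AddValuation.map_zero] at hm
    exact WithTop.top_ne_coe hm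
  refine ⟨(P.index : L)⁻¹ * ∑ q : G ⧸ P, q.out • d, fun g => ?_, ?_⟩
  · rw [smul_mul', smul_inv'', show g • (P.index : L) = P.index from
      map_natCast (MulSemiringAction.toRingHom G L g) _, Finset.smul_sum]
    congr 1
    refine Fintype.sum_equiv (MulAction.toPerm g) _ _ fun q => ?_
    obtain ⟨h, hh⟩ := QuotientGroup.mk_out_eq_mul P (g * q.out)
    have e : (g • q : G ⧸ P) = ((g * q.out : G) : G ⧸ P) := by
      conv_lhs => rw [← q.out_eq]
      rfl
    rw [MulAction.toPerm_apply, e, hh, mul_smul _ (h : G), hdfix _ h.2, mul_smul]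
  · rw [show x - (P.index : L)⁻¹ * ∑ q : G ⧸ P, q.out • d =
        (P.index : L)⁻¹ * -∑ q : G ⧸ P, (q.out • d - x) by
      rw [Finset.sum_sub_distrib, Finset.sum_const, Finset.card_univ, ← Nat.card_eq_fintype_card,
        nsmul_eq_mul, ← Subgroup.index]
      field_simp
      ring, AddValuation.map_mul, AddValuation.map_inv, hm, neg_zero, zero_add,
      AddValuation.map_neg]
    refine AddValuation.map_lt_sum _ WithTop.coe_ne_top fun q _ => ?_
    rw [show q.out • d - x = (q.out • d - d) + (d - x) by ring]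
    exact AddValuation.map_lt_add _ (htriv _ _ hd0) hdx

/-- Fixed representatives over a perfect residue field. -/
theorem exists_fixed_rep (hv : ∀ (g : G) x, v (g • x) = v x)
    (htriv : ∀ (g : G) x, 0 ≤ v x → 0 < v (g • x - x))
    (hperf : ∀ p : ℕ, p.Prime → 0 < v (p : L) → ∀ x, 0 ≤ v x → ∃ y, 0 < v (x - y ^ p))
    {x : L} (hx : 0 ≤ v x) : ∃ c : L, (∀ g : G, g • c = c) ∧ 0 < v (x - c) := by
  by_cases h : ∃ p : ℕ, p.Prime ∧ 0 < v (p : L)
  · obtain ⟨p, hp, hvp⟩ := h
    have : Fact p.Prime := ⟨hp⟩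
    let P : Sylow p G := default
    obtain ⟨a, ha⟩ := P.isPGroup'.exists_card_eq
    have hroot : ∀ a : ℕ, ∀ x, 0 ≤ v x → ∃ y, 0 < v (x - y ^ p ^ a) := by
      intro a
      induction a with
      | zero => exact fun x _ => ⟨x, by simp [AddValuation.map_zero]⟩
      | succ a ih =>
        intro x hx
        obtain ⟨z, hz⟩ := hperf p hp hvp x hx
        have hz0 : 0 ≤ v z := nonneg_of_pow_nonneg v hp.ne_zero (nonneg_of_pos_sub v hx hz)
        obtain ⟨y, hy⟩ := ih z hz0
        refine ⟨y, ?_⟩
        rw [show x - y ^ p ^ (a + 1) = (x - z ^ p) + (z ^ p - (y ^ p ^ a) ^ p) by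
          rw [← pow_mul, ← pow_succ]; ring]
        exact AddValuation.map_lt_add _ hz
          (pos_pow_sub_pow v hz0 (nonneg_of_pos_sub v hz0 hy) hy p)
    obtain ⟨y, hy⟩ := hroot a x hx
    refine exists_fixed_of_subgroup v hv htriv P.toSubgroup hx (y := y) (by rw [ha]; exact hy) ?_
    refine natCast_val_eq_zero v Subgroup.index_ne_zero_of_finite fun q hq hd hvq => ?_
    rw [prime_eq_of_val_pos v hq hp hvq hvp] at hd
    exact P.not_dvd_index hd
  · push Not at h
    refine exists_fixed_of_subgroup v hv htriv ⊥ hx (y := x)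
      (by simp [AddValuation.map_zero]) ?_
    exact natCast_val_eq_zero v Subgroup.index_ne_zero_of_finite fun q hq _ hvq =>
      absurd hvq (not_lt.2 (h q hq))

end Fermat.Agent.HasseArf
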