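import Fermat.Agent.HasseArf.Main
import Fermat.Agent.HasseArf.Rep
import Mathlib.Algebra.Order.Floor.Semiring
import Mathlib.Algebra.Order.Archimedean.Real.Basic
import Mathlib.Tactic.Linarith

/-!
# The theorem of Hasse and Arf

Lower numbering, Herbrand's function, upper numbering and the integrality of the jumps.
-/

set_option autoImplicit false

noncomputable section

namespace Fermat.Agent.HasseArf

variable {G L : Type*} [Field L] [Group G] [MulSemiringAction G L]

/-- The lower ramification groups. -/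
def lowerGroup (v : AddValuation L (WithTop ℤ)) (hv : ∀ (g : G) (x : L), v (g • x) = v x) (i : ℕ) :
    Subgroup G where
  carrier := {g | ∀ x, 0 ≤ v x → (((i + 1 : ℕ) : ℤ) : WithTop ℤ) ≤ v (g • x - x)}
  one_mem' := fun x _ => by
    rw [one_smul, sub_self, AddValuation.map_zero]; exact le_top
  mul_mem' := fun {g h} hg hh x hx => by
    rw [show (g * h) • x - x = g • (h • x - x) + (g • x - x) by rw [smul_sub, mul_smul]; ring]
    exact AddValuation.map_le_add _ (by rw [hv]; exact hh x hx) (hg x hx)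
  inv_mem' := fun {g} hg x hx => by
    rw [← hv g, smul_sub, smul_inv_smul, AddValuation.map_sub_swap]
    exact hg x hx

variable (v : AddValuation L (WithTop ℤ)) (hv : ∀ (g : G) (x : L), v (g • x) = v x)

theorem lowerGroup_antitone {i j : ℕ} (h : i ≤ j) : lowerGroup v hv j ≤ lowerGroup v hv i :=
  fun _ hg x hx => le_trans (WithTop.coe_le_coe.2 (by omega)) (hg x hx)

/-- The lower numbering at a nonnegative real. -/
def lowerGroupReal (u : ℝ) : Subgroup G := lowerGroup v hv ⌈u⌉₊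

/-- Herbrand's function `φ`, the piecewise linear integral of `1 / [G₀ : G_t]`. -/
def herbrandPhi (u : ℝ) : ℝ :=
  ∑ i ∈ Finset.range ⌈u⌉₊, min 1 (u - i) *
    ((Nat.card (lowerGroup v hv (i + 1)) : ℝ) / Nat.card (lowerGroup v hv 0))

/-- The upper numbering `G^w = G_u` for `φ u = w`. -/
def upperGroup (w : ℝ) : Subgroup G :=
  ⨆ (u : ℝ) (_ : 0 ≤ u ∧ w ≤ herbrandPhi v hv u), lowerGroupReal v hv u

variable [Finite G]

/-- The slope of `φ` on `(n, n + 1)`. -/
def slope (n : ℕ) : ℝ :=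
  (Nat.card (lowerGroup v hv (n + 1)) : ℝ) / Nat.card (lowerGroup v hv 0)

theorem slope_pos (n : ℕ) : 0 < slope v hv n :=
  div_pos (by exact_mod_cast Nat.card_pos) (by exact_mod_cast Nat.card_pos)

omit [Finite G] in
theorem herbrandPhi_natCast (n : ℕ) :
    herbrandPhi v hv n = ∑ i ∈ Finset.range n, slope v hv i := by
  rw [herbrandPhi, Nat.ceil_natCast]
  refine Finset.sum_congr rfl fun i hi => ?_
  have : (i : ℝ) + 1 ≤ n := by exact_mod_cast Finset.mem_range.1 hi
  rw [min_eq_left (by linarith), one_mul, slope]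

omit [Finite G] in
theorem herbrandPhi_eq {n : ℕ} {u : ℝ} (h1 : (n : ℝ) ≤ u) (h2 : u ≤ n + 1) :
    herbrandPhi v hv u = herbrandPhi v hv n + (u - n) * slope v hv n := by
  rcases h1.eq_or_lt with rfl | h1
  · rw [sub_self, zero_mul, add_zero]
  · have hc : ⌈u⌉₊ = n + 1 := (Nat.ceil_eq_iff n.succ_ne_zero).2 ⟨by simpa using h1, by simpa⟩
    rw [herbrandPhi_natCast, herbrandPhi, hc, Finset.sum_range_succ]
    congr 1
    · refine Finset.sum_congr rfl fun i hi => ?_
      have : (i : ℝ) + 1 ≤ n := by exact_mod_cast Finset.mem_range.1 hi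
      rw [min_eq_left (by linarith), one_mul, slope]
    · rw [min_eq_right (by linarith), slope]

theorem herbrandPhi_natCast_mono {m n : ℕ} (h : m ≤ n) :
    herbrandPhi v hv m ≤ herbrandPhi v hv n := by
  rw [herbrandPhi_natCast, herbrandPhi_natCast]
  exact Finset.sum_le_sum_of_subset_of_nonneg (Finset.range_mono h)
    fun i _ _ => (slope_pos v hv i).le

theorem herbrandPhi_lt {a b : ℝ} (ha : 0 ≤ a) (hab : a < b) :
    herbrandPhi v hv a < herbrandPhi v hv b := by
  have ha1 := Nat.floor_le ha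
  have ha2 := Nat.lt_floor_add_one a
  have hb1 := Nat.floor_le (ha.trans hab.le)
  have hb2 := Nat.lt_floor_add_one b
  rw [herbrandPhi_eq v hv ha1 ha2.le, herbrandPhi_eq v hv hb1 hb2.le]
  rcases (Nat.floor_mono hab.le).eq_or_lt with he | hlt
  · rw [he]
    have := mul_lt_mul_of_pos_right (sub_lt_sub_right hab (⌊b⌋₊ : ℝ)) (slope_pos v hv ⌊b⌋₊)
    linarith
  · have h1 := herbrandPhi_natCast_mono v hv (Nat.succ_le_of_lt hlt)
    have h2 : herbrandPhi v hv ((⌊a⌋₊ + 1 : ℕ) : ℝ) =
        herbrandPhi v hv ⌊a⌋₊ + slope v hv ⌊a⌋₊ := by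
      rw [herbrandPhi_natCast, herbrandPhi_natCast, Finset.sum_range_succ]
    have h3 : 0 ≤ (b - (⌊b⌋₊ : ℝ)) * slope v hv ⌊b⌋₊ :=
      mul_nonneg (by linarith) (slope_pos v hv _).le
    have h4 : (a - (⌊a⌋₊ : ℝ)) * slope v hv ⌊a⌋₊ < 1 * slope v hv ⌊a⌋₊ :=
      mul_lt_mul_of_pos_right (by linarith) (slope_pos v hv _)
    simp only [Nat.succ_eq_add_one] at h1
    linarith

theorem exists_herbrandPhi_eq {w : ℝ} (hw : 0 ≤ w) : ∃ u : ℝ, 0 ≤ u ∧ herbrandPhi v hv u = w := by
  set N : ℝ := (Nat.card (lowerGroup v hv 0) : ℝ) with hN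
  have hNpos : 0 < N := by rw [hN]; exact_mod_cast Nat.card_pos
  have hex : ∃ n : ℕ, w ≤ herbrandPhi v hv n := by
    obtain ⟨n, hn⟩ := exists_nat_ge (w * N)
    refine ⟨n, ?_⟩
    rw [herbrandPhi_natCast]
    have h1 : ∀ i ∈ Finset.range n, N⁻¹ ≤ slope v hv i := fun i _ => by
      rw [slope, ← hN, ← one_div]
      gcongr
      exact_mod_cast Nat.card_pos
    have h2 := Finset.card_nsmul_le_sum _ _ _ h1
    rw [Finset.card_range, nsmul_eq_mul] at h2
    refine le_trans ?_ h2
    rw [← div_eq_mul_inv, le_div_iff₀ hNpos]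
    exact hn
  classical
  obtain ⟨n, hn, hmin⟩ : ∃ n : ℕ, w ≤ herbrandPhi v hv n ∧
      ∀ m < n, herbrandPhi v hv m < w :=
    ⟨Nat.find hex, Nat.find_spec hex, fun m hm => not_le.1 (Nat.find_min hex hm)⟩
  rcases n with _ | n
  · refine ⟨0, le_rfl, ?_⟩
    rw [herbrandPhi_natCast, Finset.sum_range_zero] at hn
    rw [show (0 : ℝ) = ((0 : ℕ) : ℝ) by norm_num, herbrandPhi_natCast, Finset.sum_range_zero]
    linarith
  · have hlo := hmin n n.lt_succ_self
    have hs := slope_pos v hv n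
    have hhi : w ≤ herbrandPhi v hv n + slope v hv n := by
      rwa [herbrandPhi_natCast, Finset.sum_range_succ, ← herbrandPhi_natCast] at hn
    set t := (w - herbrandPhi v hv n) / slope v hv n with ht
    have ht0 : 0 ≤ t := div_nonneg (by linarith) hs.le
    have ht1 : t ≤ 1 := (div_le_one hs).2 (by linarith)
    refine ⟨n + t, by positivity, ?_⟩
    rw [herbrandPhi_eq v hv (n := n) (by linarith) (by linarith), ht]
    field_simp
    ring

theorem upperGroup_herbrandPhi {u : ℝ} (hu : 0 ≤ u) :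
    upperGroup v hv (herbrandPhi v hv u) = lowerGroupReal v hv u := by
  refine le_antisymm (iSup₂_le fun u' h => ?_) (le_iSup₂_of_le u ⟨hu, le_rfl⟩ le_rfl)
  refine lowerGroup_antitone v hv (Nat.ceil_mono (not_lt.1 fun hlt => ?_))
  exact absurd h.2 (not_le.2 (herbrandPhi_lt v hv h.1 hlt))

end Fermat.Agent.HasseArf
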