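import Fermat.Agent.HasseArf.Setting
import Mathlib.Algebra.Polynomial.AlgebraMap
import Mathlib.Algebra.Polynomial.BigOperators
import Mathlib.Algebra.Polynomial.Div
import Mathlib.FieldTheory.Fixed
import Mathlib.GroupTheory.GroupAction.SubMulAction

/-!
# The quotient by a subgroup and Herbrand's lemma

The fixed field of a subgroup `H` on which `ij` is finite away from `1` has valuations the
multiples of `#H`, and `ij` on it is the average of `ij` over the cosets
(`v_smul_sub_normπ_eq`, for any subgroup).
-/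

set_option autoImplicit false

noncomputable section

open Polynomial

namespace Fermat.Agent.HasseArf

namespace TotallyRamified

section General

variable {G L : Type*} [Group G] [Field L] [MulSemiringAction G L]

variable (T : TotallyRamified G L)

theorem v_prod {ι : Type*} (s : Finset ι) (f : ι → L) :
    T.v (∏ i ∈ s, f i) = ∑ i ∈ s, T.v (f i) := by
  classical
  induction s using Finset.induction with
  | empty => simp
  | insert a s ha ih => rw [Finset.prod_insert ha, Finset.sum_insert ha, AddValuation.map_mul, ih]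

theorem v_coeff_prod_nonneg {ι : Type*} (s : Finset ι) {f : ι → L}
    (hf : ∀ i ∈ s, ((0 : ℤ) : WithTop ℤ) ≤ T.v (f i)) :
    ∀ m, ((0 : ℤ) : WithTop ℤ) ≤ T.v ((∏ i ∈ s, (X - Polynomial.C (f i))).coeff m) := by
  classical
  induction s using Finset.induction with
  | empty =>
    intro m
    rw [Finset.prod_empty, coeff_one]
    split_ifs
    · rw [T.v_one]
    · rw [T.v_zero]; exact le_top
  | insert a s ha ih =>
    intro m
    have ih' := ih fun i hi => hf i (Finset.mem_insert_of_mem hi)
    have hmul : ∀ j, ((0 : ℤ) : WithTop ℤ) ≤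
        T.v (f a * (∏ i ∈ s, (X - Polynomial.C (f i))).coeff j) := fun j => by
      rw [AddValuation.map_mul]
      exact add_nonneg (hf a (Finset.mem_insert_self _ _)) (ih' j)
    rw [Finset.prod_insert ha, sub_mul, coeff_sub, coeff_C_mul]
    refine AddValuation.map_le_sub _ ?_ (hmul m)
    rcases m with _ | m
    · rw [coeff_X_mul_zero, T.v_zero]; exact le_top
    · rw [coeff_X_mul]; exact ih' m

/-- A monic polynomial of degree `r` is not small at more than `r` points. -/
theorem monic_values_le : ∀ (r : ℕ) (P : L[X]) (s : Finset L) (D B : ℤ), P.Monic →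
    P.natDegree = r → r < s.card → (∀ a ∈ s, ∀ b ∈ s, a ≠ b → T.v (a - b) ≤ (D : WithTop ℤ)) →
    (∀ a ∈ s, (B : WithTop ℤ) ≤ T.v (P.eval a)) → B ≤ r * D := by
  classical
  intro r
  induction r with
  | zero =>
    intro P s D B hP hd hs _ hB
    obtain ⟨a, ha⟩ := Finset.card_pos.1 hs
    have h := hB a ha
    rw [hP.natDegree_eq_zero.1 hd, eval_one, T.v_one, WithTop.coe_le_coe] at h
    simpa using h
  | succ r ih =>
    intro P s D B hP hd hs hD hB
    obtain ⟨a, ha⟩ := Finset.card_pos.1 (Nat.zero_lt_of_lt hs)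
    set P' := P - Polynomial.C (P.eval a) with hP'
    have hP'd : P'.natDegree = r + 1 := by rw [hP', natDegree_sub_C, hd]
    have hP'm : P'.Monic := hP.sub_of_left (by
      rw [degree_eq_natDegree hP.ne_zero, hd]
      exact degree_C_le.trans_lt (WithBot.coe_lt_coe.2 r.succ_pos))
    obtain ⟨Q, hQ⟩ := dvd_iff_isRoot.2 (show P'.IsRoot a by simp [hP'])
    have hQm : Q.Monic := (monic_X_sub_C a).of_mul_monic_left (hQ ▸ hP'm)
    have hQd : Q.natDegree = r := by
      rw [hQ, (monic_X_sub_C a).natDegree_mul hQm, natDegree_X_sub_C] at hP'd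
      omega
    refine le_of_sub_nonneg ?_
    have h := ih Q (s.erase a) D (B - D) hQm hQd
      (by rw [Finset.card_erase_of_mem ha]; omega)
      (fun x hx y hy => hD x (Finset.mem_of_mem_erase hx) y (Finset.mem_of_mem_erase hy)) ?_
    · push_cast
      linarith
    intro b hb
    rw [Finset.mem_erase] at hb
    have he : (b - a) * Q.eval b = P.eval b - P.eval a := by
      have := congrArg (eval b) hQ
      simpa [hP'] using this.symm
    have h1 : (B : WithTop ℤ) ≤ T.v ((b - a) * Q.eval b) := by
      rw [he]; exact AddValuation.map_le_sub _ (hB b hb.2) (hB a ha)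
    obtain ⟨d, hd'⟩ := T.exists_eq_coe (sub_ne_zero.2 hb.1)
    have h2 := hD b hb.2 a ha hb.1
    rw [hd', WithTop.coe_le_coe] at h2
    rw [AddValuation.map_mul, hd'] at h1
    revert h1
    generalize T.v (Q.eval b) = q
    induction q using WithTop.recTopCoe with
    | top => exact fun _ => le_top
    | coe q =>
      intro h1
      rw [← WithTop.coe_add, WithTop.coe_le_coe] at h1
      rw [WithTop.coe_le_coe]
      omega

variable (H : Subgroup G) [Fintype H]

/-- The norm of the uniformizer. -/
def normπ : L := ∏ h : H, (h : G) • T.π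

theorem normπ_mem : T.normπ H ∈ FixedPoints.subfield H L := fun g => by
  change (g : G) • T.normπ H = T.normπ H
  rw [normπ, Finset.smul_prod']
  exact Fintype.prod_equiv (Equiv.mulLeft g) _ _ fun h => by
    rw [← mul_smul]; rfl

theorem v_normπ : T.v (T.normπ H) = (((Fintype.card H : ℕ) : ℤ) : WithTop ℤ) := by
  rw [normπ, T.v_prod, Finset.sum_congr rfl fun (h : H) _ => show T.v ((h : G) • T.π) = _ from
      (T.smul_v (h : G) T.π).trans T.v_π,
    Finset.sum_const, Finset.card_univ, ← WithTop.coe_nsmul, nsmul_eq_mul, mul_one]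

theorem v_zpow {x : L} {a : ℤ} (hx : T.v x = (a : WithTop ℤ)) (k : ℤ) :
    T.v (x ^ k) = ((k * a : ℤ) : WithTop ℤ) := by
  cases k with
  | ofNat n =>
    rw [Int.ofNat_eq_natCast, zpow_natCast, AddValuation.map_pow, hx, ← WithTop.coe_nsmul,
      nsmul_eq_mul]
  | negSucc n =>
    rw [zpow_negSucc, AddValuation.map_inv, AddValuation.map_pow, hx, ← WithTop.coe_nsmul,
      nsmul_eq_mul, ← WithTop.LinearOrderedAddCommGroup.coe_neg, Int.negSucc_eq, neg_mul]
    push_cast
    rfl

variable {H} (hH : ∀ h : H, T.ij (h : G) = ⊤ → h = 1)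

include hH in
/-- The valuations of the fixed field are the multiples of `#H`. -/
theorem card_dvd_of_mem {x : L} (hx : x ∈ FixedPoints.subfield H L) {a : ℤ}
    (ha : T.v x = (a : WithTop ℤ)) : (Fintype.card H : ℤ) ∣ a := by
  classical
  set e := Fintype.card H with he
  have he0 : (0 : ℤ) < e := by exact_mod_cast Fintype.card_pos
  by_contra hnd
  set r := (a % e).toNat with hr
  have hr' : (r : ℤ) = a % e := Int.toNat_of_nonneg (Int.emod_nonneg _ he0.ne')
  have hr0 : 0 < r := Nat.pos_of_ne_zero fun h => hnd (Int.dvd_of_emod_eq_zero (by omega))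
  have hre : r < e := by have := Int.emod_lt_of_pos a he0; omega
  set w := x * T.normπ H ^ (-(a / e)) with hw
  have hwF : w ∈ FixedPoints.subfield H L := mul_mem hx (zpow_mem (T.normπ_mem H) _)
  have hvw : T.v w = ((r : ℤ) : WithTop ℤ) := by
    rw [hw, AddValuation.map_mul, ha, T.v_zpow (T.v_normπ H), ← WithTop.coe_add, hr',
      Int.emod_def]
    congr 1
    rw [he]
    ring
  set Xf : ℕ → L := fun m => w ^ (m / r) * T.π ^ (m % r) with hXf
  have hX : ∀ m, T.v (Xf m) = ((m : ℤ) : WithTop ℤ) := fun m => by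
    rw [hXf]
    simp only
    rw [AddValuation.map_mul, AddValuation.map_pow, hvw, T.v_π_pow, ← WithTop.coe_nsmul,
      ← WithTop.coe_add, nsmul_eq_mul]
    exact congrArg _ (by exact_mod_cast Nat.div_add_mod' m r)
  set S : Finset L := Finset.univ.image fun h : H => (h : G) • T.π with hS
  have hScard : S.card = e := by
    rw [hS, Finset.card_image_of_injective _ fun h h' hh => ?_, Finset.card_univ]
    have h1 := hH (h'⁻¹ * h) ((T.ij_eq_top_iff _).2 (by
      rw [Subgroup.coe_mul, Subgroup.coe_inv, mul_smul, hh, inv_smul_smul]))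
    exact (inv_mul_eq_one.1 h1).symm
  set D : ℕ := ∑ ab ∈ S ×ˢ S, ((T.v (ab.1 - ab.2)).untopD 0).toNat with hD
  obtain ⟨c, hc, hcr⟩ := T.exists_expansion hX (T.v_π_pow r).ge (r * D + 1)
  set k := r * D + 1 with hk
  set P : L[X] := X ^ r -
    ∑ i ∈ Finset.range k, Polynomial.C (c i * w ^ ((r + i) / r)) * X ^ ((r + i) % r) with hP
  have hdeg : (∑ i ∈ Finset.range k,
      Polynomial.C (c i * w ^ ((r + i) / r)) * X ^ ((r + i) % r)).degree < (r : WithBot ℕ) :=
    (degree_sum_le _ _).trans_lt ((Finset.sup_lt_iff (WithBot.bot_lt_coe r)).2 fun i _ =>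
      (degree_C_mul_X_pow_le _ _).trans_lt (WithBot.coe_lt_coe.2 (Nat.mod_lt _ hr0)))
  have hPm : P.Monic := monic_X_pow_sub hdeg
  have hPd : P.natDegree = r := natDegree_eq_of_degree_eq_some (by
    rw [hP, degree_sub_eq_left_of_degree_lt] <;> rw [degree_X_pow]
    exact hdeg)
  have hres : P.eval T.π = T.π ^ r - ∑ i ∈ Finset.range k, c i * Xf (r + i) := by
    simp [hP, hXf, eval_finsetSum, mul_assoc]
  have hconj : ∀ h : H, P.eval ((h : G) • T.π) = (h : G) • P.eval T.π := fun h => by
    simp only [hP, eval_sub, eval_pow, eval_X, eval_finsetSum, eval_mul, eval_C, smul_sub,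
      Finset.smul_sum, smul_mul', smul_pow', (hc _).1 (h : G)]
    rw [show (h : G) • w = w from hwF h]
  have hle := T.monic_values_le r P S (D : ℤ) ((r + k : ℕ) : ℤ) hPm hPd (by omega) ?_ ?_
  · rw [hk] at hle
    push_cast at hle
    omega
  · intro a ha b hb hab
    obtain ⟨d, hd⟩ := T.exists_eq_coe (sub_ne_zero.2 hab)
    rw [hd, WithTop.coe_le_coe]
    have := Finset.single_le_sum (f := fun ab : L × L => ((T.v (ab.1 - ab.2)).untopD 0).toNat)
      (fun _ _ => Nat.zero_le _) (Finset.mk_mem_product ha hb)
    simp only [hd, WithTop.untopD_coe] at this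
    omega
  · intro a ha
    obtain ⟨h, -, rfl⟩ := Finset.mem_image.1 ha
    rw [hconj, T.smul_v, hres]
    exact hcr

/-- The valuation of the fixed field. -/
def quotVal : AddValuation (FixedPoints.subfield H L) (WithTop ℤ) :=
  AddValuation.of (fun x => (T.v (x : L)).map (· / (Fintype.card H : ℤ)))
    (by simp [T.v_zero])
    (by simp [T.v_one])
    (fun x y => by
      have hm : Monotone (WithTop.map (· / (Fintype.card H : ℤ)) : WithTop ℤ → WithTop ℤ) :=
        Monotone.withTop_map fun a b hab =>
          Int.ediv_le_ediv (by exact_mod_cast Fintype.card_pos) hab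
      rw [← hm.map_min]
      exact hm (AddValuation.map_add _ _ _))
    (fun x y => by
      by_cases hx : x = 0
      · simp [hx, T.v_zero]
      by_cases hy : y = 0
      · simp [hy, T.v_zero]
      obtain ⟨a, ha⟩ := T.exists_eq_coe (x := (x : L)) (by exact_mod_cast hx)
      obtain ⟨b, hb⟩ := T.exists_eq_coe (x := (y : L)) (by exact_mod_cast hy)
      rw [Subfield.coe_mul, AddValuation.map_mul, ha, hb, ← WithTop.coe_add, WithTop.map_coe,
        WithTop.map_coe, WithTop.map_coe, ← WithTop.coe_add,
        Int.add_ediv_of_dvd_left (T.card_dvd_of_mem hH x.2 ha)])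

theorem quotVal_apply (x : FixedPoints.subfield H L) :
    T.quotVal hH x = (T.v (x : L)).map (· / (Fintype.card H : ℤ)) :=
  rfl

theorem v_coe_eq (x : FixedPoints.subfield H L) :
    T.v (x : L) = (T.quotVal hH x).map ((Fintype.card H : ℤ) * ·) := by
  rw [quotVal_apply]
  by_cases hx : x = 0
  · simp [hx, T.v_zero]
  · obtain ⟨a, ha⟩ := T.exists_eq_coe (x := (x : L)) (by exact_mod_cast hx)
    rw [ha, WithTop.map_coe, WithTop.map_coe, Int.mul_ediv_cancel' (T.card_dvd_of_mem hH x.2 ha)]

include hH in
/-- Every integral element of the fixed field moves at least as little as its uniformizer. -/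
theorem v_smul_sub_normπ_le (g : G) {c : L} (hc : c ∈ FixedPoints.subfield H L)
    (hc0 : ((0 : ℤ) : WithTop ℤ) ≤ T.v c) :
    T.v (g • T.normπ H - T.normπ H) ≤ T.v (g • c - c) := by
  refine le_of_forall_min_natCast_le fun k => ?_
  induction k generalizing c with
  | zero =>
    exact (min_le_right _ _).trans (AddValuation.map_le_sub _ (by rwa [T.smul_v]) hc0)
  | succ k ih =>
    set e := Fintype.card H with he
    have he0 : (0 : ℤ) < e := by exact_mod_cast Fintype.card_pos
    obtain ⟨d, hd, hcd⟩ : ∃ d, (∀ x : G, x • d = d) ∧ ((0 : ℤ) : WithTop ℤ) < T.v (c - d) := by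
      rcases hc0.lt_or_eq with hlt | heq
      · exact ⟨0, fun x => smul_zero x, by rwa [sub_zero]⟩
      · exact T.rep c heq.symm
    have hdF : c - d ∈ FixedPoints.subfield H L := sub_mem hc fun h => hd h
    have hne : T.normπ H ≠ 0 := fun h => WithTop.coe_ne_top (a := (e : ℤ))
      (by rw [he, ← T.v_normπ H, h, T.v_zero])
    set c' := (c - d) / T.normπ H with hc'
    have hc'0 : ((0 : ℤ) : WithTop ℤ) ≤ T.v c' := by
      by_cases h0 : c - d = 0
      · rw [hc', h0, zero_div, T.v_zero]; exact le_top
      · obtain ⟨a, ha⟩ := T.exists_eq_coe h0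
        rw [ha, WithTop.coe_lt_coe] at hcd
        rw [hc', AddValuation.map_div, ha, T.v_normπ, ← he,
          ← WithTop.LinearOrderedAddCommGroup.coe_sub, WithTop.coe_le_coe]
        have := Int.le_of_dvd hcd (T.card_dvd_of_mem hH hdF ha)
        rw [← he] at this
        omega
    have h1 := ih (c := c') (div_mem hdF (T.normπ_mem H)) hc'0
    have hcdec : T.normπ H * c' = c - d := mul_div_cancel₀ _ hne
    have hsplit : g • c - c =
        g • T.normπ H * (g • c' - c') + (g • T.normπ H - T.normπ H) * c' := by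
      have e : g • c - c = g • (T.normπ H * c') - T.normπ H * c' := by
        rw [hcdec, smul_sub, hd g]; ring
      rw [e, smul_mul']; ring
    rw [hsplit]
    refine AddValuation.map_le_add _ ?_ ?_
    · rw [AddValuation.map_mul, T.smul_v, T.v_normπ, ← he]
      refine le_trans ?_ (add_le_add (le_refl ((e : ℤ) : WithTop ℤ)) h1)
      rw [← min_add_add_left]
      refine min_le_min (le_add_of_nonneg_left (WithTop.coe_nonneg.2 he0.le)) ?_
      rw [← WithTop.coe_add, WithTop.coe_le_coe]
      push_cast
      omega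
    · rw [AddValuation.map_mul]
      exact (min_le_left _ _).trans (le_add_of_nonneg_right hc'0)

include hH in
/-- **Herbrand's lemma**, for an arbitrary subgroup. -/
theorem v_smul_sub_normπ_eq (g : G) :
    T.v (g • T.normπ H - T.normπ H) = ∑ h : H, T.ij (g * h) := by
  classical
  set e := Fintype.card H with he
  set P : L[X] := ∏ h : H, (X - Polynomial.C ((h : G) • T.π)) with hP
  have hcoeff : ∀ i, P.coeff i ∈ FixedPoints.subfield H L := fun i g' => by
    change (MulSemiringAction.toRingHom G L (g' : G)) (P.coeff i) = P.coeff i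
    rw [← coeff_map, hP, Polynomial.map_prod]
    congr 1
    refine Fintype.prod_equiv (Equiv.mulLeft g') _ _ fun h => ?_
    simp [mul_smul]
  have hnonneg : ∀ i, ((0 : ℤ) : WithTop ℤ) ≤ T.v (P.coeff i) :=
    T.v_coeff_prod_nonneg _ fun h _ => by
      rw [T.smul_v, T.v_π]; exact WithTop.coe_le_coe.2 zero_le_one
  have hdeg : P.natDegree = e := by
    rw [hP, natDegree_prod_of_monic _ _ fun h _ => monic_X_sub_C _]
    simp [he]
  set A := T.v (g • T.normπ H - T.normπ H) with hA'
  have hbound : ∀ i, A ≤ T.v (g • P.coeff i - P.coeff i) := fun i =>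
    T.v_smul_sub_normπ_le hH g (hcoeff i) (hnonneg i)
  have hsum : ∑ h : H, T.ij (g * h) =
      T.v (∑ i ∈ Finset.range (e + 1), (g • P.coeff i - P.coeff i) * T.π ^ i) := by
    have hev : ∑ i ∈ Finset.range (e + 1), (g • P.coeff i - P.coeff i) * T.π ^ i =
        (P.map (MulSemiringAction.toRingHom G L g)).eval T.π - P.eval T.π := by
      rw [eval_eq_sum_range' (n := e + 1)
          (by rw [Nat.lt_succ_iff]; exact natDegree_map_le.trans hdeg.le),
        eval_eq_sum_range' (n := e + 1) (by omega), ← Finset.sum_sub_distrib]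
      exact Finset.sum_congr rfl fun i _ => by
        rw [coeff_map, sub_mul, MulSemiringAction.toRingHom_apply]
    have hzero : P.eval T.π = 0 := by
      rw [hP, eval_prod]
      exact Finset.prod_eq_zero (Finset.mem_univ (1 : H)) (by simp)
    rw [hev, hzero, sub_zero, hP, Polynomial.map_prod, eval_prod, T.v_prod]
    refine Finset.sum_congr rfl fun h _ => ?_
    rw [ij, AddValuation.map_sub_swap]
    simp [mul_smul]
  rw [hsum, ← Finset.add_sum_erase _ _ (Finset.mem_range.2 e.succ_pos), pow_zero, mul_one]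
  have h0 : T.v (g • P.coeff 0 - P.coeff 0) = A := by
    rw [hP, coeff_zero_prod]
    simp only [coeff_sub, coeff_X_zero, coeff_C_zero, zero_sub]
    rw [Finset.prod_neg, ← normπ]
    have hs : g • ((-1 : L) ^ (Finset.univ : Finset H).card * T.normπ H) =
        (-1 : L) ^ (Finset.univ : Finset H).card * g • T.normπ H := by
      rw [smul_mul', smul_pow', smul_neg, smul_one]
    rw [hs, ← mul_sub]
    rcases neg_one_pow_eq_or L (Finset.univ : Finset H).card with h | h <;>
      rw [h]
    · rw [one_mul]
    · rw [neg_one_mul, AddValuation.map_neg]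
  by_cases hAt : A = ⊤
  · rw [hAt]
    refine (top_le_iff.1 (AddValuation.map_le_add _ (le_of_eq (hAt.symm.trans h0.symm))
      (AddValuation.map_le_sum _ fun i _ => ?_))).symm
    rw [AddValuation.map_mul, top_le_iff.1 (hAt.symm.le.trans (hbound i)), WithTop.top_add]
  · rw [AddValuation.map_add_eq_of_lt_left, h0]
    rw [h0]
    refine AddValuation.map_lt_sum _ hAt fun i hi => ?_
    rw [Finset.mem_erase] at hi
    rw [AddValuation.map_mul, T.v_π_pow]
    refine lt_of_lt_of_le ?_ (add_le_add (hbound i) le_rfl)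
    obtain ⟨a, ha⟩ := WithTop.ne_top_iff_exists.1 hAt
    rw [← ha, ← WithTop.coe_add, WithTop.coe_lt_coe]
    omega

end General

end TotallyRamified

variable {G L : Type*} [CommGroup G] [Field L] [MulSemiringAction G L]

instance fixedFieldAction (H : Subgroup G) :
    MulSemiringAction G (FixedPoints.subfield H L) where
  smul g x := ⟨g • (x : L), fun h => by
    change (h : G) • g • (x : L) = g • (x : L)
    rw [← mul_smul, mul_comm, mul_smul]
    exact congrArg (g • ·) (x.2 h)⟩
  one_smul x := Subtype.ext (one_smul G (x : L))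
  mul_smul g g' x := Subtype.ext (mul_smul g g' (x : L))
  smul_zero g := Subtype.ext (smul_zero g)
  smul_add g x y := Subtype.ext (smul_add g (x : L) (y : L))
  smul_one g := Subtype.ext (smul_one g)
  smul_mul g x y := Subtype.ext (smul_mul' g (x : L) (y : L))

theorem coe_fixedField_smul (H : Subgroup G) (g : G) (x : FixedPoints.subfield H L) :
    ((g • x : FixedPoints.subfield H L) : L) = g • (x : L) :=
  rfl

namespace TotallyRamified

variable (T : TotallyRamified G L) {H : Subgroup G} [Fintype H]
  (hH : ∀ h : H, T.ij (h : G) = ⊤ → h = 1)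

/-- The fixed field of `H`, with the action of the whole group. -/
def quot : TotallyRamified G (FixedPoints.subfield H L) where
  v := T.quotVal hH
  smul_v g x := by rw [quotVal_apply, quotVal_apply, coe_fixedField_smul, T.smul_v]
  π := ⟨T.normπ H, T.normπ_mem H⟩
  v_π := by
    rw [quotVal_apply, T.v_normπ, WithTop.map_coe,
      Int.ediv_self (Nat.cast_ne_zero.2 Fintype.card_ne_zero)]
  rep x hx := by
    have hx' : T.v (x : L) = ((0 : ℤ) : WithTop ℤ) := by
      rw [T.v_coe_eq hH, hx, WithTop.map_coe, mul_zero]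
    obtain ⟨c, hc, hxc⟩ := T.rep _ hx'
    refine ⟨⟨c, fun h => hc h⟩, fun g => Subtype.ext (hc g), ?_⟩
    refine lt_of_not_ge fun hle => absurd hxc (not_lt.2 ?_)
    have hsub : (x : L) - c = ((x - ⟨c, fun h => hc h⟩ : FixedPoints.subfield H L) : L) := rfl
    rw [hsub, T.v_coe_eq hH]
    refine le_trans (Monotone.withTop_map
      (fun a b hab => mul_le_mul_of_nonneg_left hab (Int.natCast_nonneg _)) hle) ?_
    rw [WithTop.map_coe, mul_zero]

/-- **Herbrand's lemma** for the quotient. -/
theorem ij_quot (g : G) :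
    ((T.quot hH).ij g).map ((Fintype.card H : ℤ) * ·) = ∑ h : H, T.ij (g * h) :=
  (T.v_coe_eq hH _).symm.trans (T.v_smul_sub_normπ_eq hH g)

end TotallyRamified

end Fermat.Agent.HasseArf
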