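import Fermat.Agent.HasseArf.Sen
import Fermat.Agent.HasseArf.Quotient
import Mathlib.GroupTheory.FiniteAbelian.Duality
import Mathlib.RingTheory.RootsOfUnity.EnoughRootsOfUnity
import Mathlib.RingTheory.RootsOfUnity.AlgebraicallyClosed
import Mathlib.RingTheory.IntegralDomain
import Mathlib.Analysis.Complex.Polynomial.Basic
import Mathlib.GroupTheory.OrderOfElement

/-!
# The divisibility at the jumps

If `b` is a value of `ij`, the order of the group divides `∑ min (ij x) b`. The proof passes to a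
cyclic quotient in which the jump survives and applies Sen's congruence there.
-/

set_option autoImplicit false

noncomputable section

namespace Fermat.Agent.HasseArf

theorem sum_range_mul_blocks {β : Type*} [AddCommMonoid β] (p : ℕ) (f : ℕ → β) : ∀ N : ℕ,
    ∑ k ∈ Finset.range (N * p), f k =
      ∑ q ∈ Finset.range N, ∑ r ∈ Finset.range p, f (q * p + r)
  | 0 => by simp
  | N + 1 => by
    rw [add_mul, one_mul, Finset.sum_range_add, Finset.sum_range_succ,
      sum_range_mul_blocks p f N]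

theorem exists_of_map_eq_coe {f : ℤ → ℤ} {x : WithTop ℤ} {a : ℤ} (h : x.map f = (a : WithTop ℤ)) :
    ∃ q : ℤ, x = (q : WithTop ℤ) ∧ f q = a := by
  induction x using WithTop.recTopCoe with
  | top => simp at h
  | coe q => exact ⟨q, rfl, WithTop.coe_inj.1 h⟩

/-- `m` at the valuation of `k`, and `m M` at `0`. -/
def levelFun (p M : ℕ) (m : ℕ → ℤ) (k : ℕ) : ℤ := if k = 0 then m M else m (padicValNat p k)

theorem dvd_sum_levelFun {p : ℕ} (hp : p.Prime) : ∀ (M c : ℕ) (m : ℕ → ℤ),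
    (∀ s < M, (p : ℤ) ^ (c + s + 1) ∣ m (s + 1) - m s) →
      (p : ℤ) ^ (c + M) ∣ ∑ k ∈ Finset.range (p ^ M), levelFun p M m k - (p : ℤ) ^ M * m 0
  | 0, c, m, _ => by simp [levelFun]
  | M + 1, c, m, h => by
    have : Fact p.Prime := ⟨hp⟩
    obtain ⟨p', hp'⟩ : ∃ p', p = p' + 1 := ⟨p - 1, (Nat.sub_add_cancel hp.pos).symm⟩
    have hblock : ∀ q, ∑ r ∈ Finset.range p, levelFun p (M + 1) m (q * p + r) =
        levelFun p M (fun s => m (s + 1)) q + (p' : ℤ) * m 0 := fun q => by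
      have h1 : ∀ r ∈ Finset.range p', levelFun p (M + 1) m (q * p + (r + 1)) = m 0 :=
        fun r hr => by
          have hr' := Finset.mem_range.1 hr
          rw [levelFun, if_neg (by omega), padicValNat.eq_zero_of_not_dvd]
          intro hd
          have := Nat.le_of_dvd r.succ_pos ((Nat.dvd_add_right (dvd_mul_left p q)).1 hd)
          omega
      have h2 : levelFun p (M + 1) m (q * p + 0) = levelFun p M (fun s => m (s + 1)) q := by
        rcases Nat.eq_zero_or_pos q with rfl | hq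
        · simp [levelFun]
        · rw [levelFun, levelFun, add_zero, if_neg (Nat.mul_ne_zero hq.ne' hp.ne_zero),
            if_neg hq.ne', padicValNat.mul hq.ne' hp.ne_zero, padicValNat_self]
      rw [show Finset.range p = Finset.range (p' + 1) by rw [← hp'], Finset.sum_range_succ',
        Finset.sum_congr rfl h1, h2, Finset.sum_const, Finset.card_range, nsmul_eq_mul,
        add_comm]
    have hIH := dvd_sum_levelFun hp M (c + 1) (fun s => m (s + 1)) fun s hs => by
      rw [show c + 1 + s + 1 = c + (s + 1) + 1 by omega]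
      exact h (s + 1) (Nat.succ_lt_succ hs)
    have hdiff : (p : ℤ) ^ (c + (M + 1)) ∣ (p : ℤ) ^ M * (m 1 - m 0) := by
      rw [show c + (M + 1) = M + (c + 0 + 1) by omega, pow_add]
      exact mul_dvd_mul_left _ (h 0 M.succ_pos)
    rw [pow_succ p M, sum_range_mul_blocks, Finset.sum_congr rfl fun q _ => hblock q,
      Finset.sum_add_distrib, Finset.sum_const, Finset.card_range, nsmul_eq_mul]
    rw [show c + 1 + M = c + (M + 1) by omega] at hIH
    have hp'' : (p : ℤ) = (p' : ℤ) + 1 := by exact_mod_cast hp'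
    refine Eq.subst (motive := fun z => (p : ℤ) ^ (c + (M + 1)) ∣ z) ?_ (dvd_add hIH hdiff)
    push_cast
    rw [pow_succ]
    linear_combination ((p : ℤ) ^ M * m 0) * hp''

/-- An element outside a subgroup survives in some cyclic quotient of prime power order. -/
theorem exists_cyclic_quotient {G : Type*} [CommGroup G] [Finite G] (K : Subgroup G) {g : G}
    (hg : g ∉ K) : ∃ (H : Subgroup G) (p N : ℕ) (σ : G), p.Prime ∧ K ≤ H ∧ g ∉ H ∧
      (∀ n : ℕ, σ ^ n ∈ H ↔ p ^ N ∣ n) ∧ ∀ x : G, ∃ k < p ^ N, ∃ h ∈ H, x = σ ^ k * h := by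
  have : NeZero (Monoid.exponent (G ⧸ K) : ℂ) :=
    ⟨Nat.cast_ne_zero.2 (Monoid.exponent_ne_zero_of_finite)⟩
  obtain ⟨φ, hφ⟩ := CommGroup.exists_apply_ne_one_of_hasEnoughRootsOfUnity (G ⧸ K) ℂ
    (a := (g : G ⧸ K)) (by rwa [Ne, QuotientGroup.eq_one_iff])
  set χ : G →* ℂˣ := φ.comp (QuotientGroup.mk' K) with hχ
  have hχg : χ g ≠ 1 := hφ
  set n := Nat.card χ.range with hn
  have hn0 : n ≠ 0 := by
    have : Finite χ.range := Finite.of_surjective χ.rangeRestrict χ.rangeRestrict_surjective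
    exact Nat.card_pos.ne'
  obtain ⟨p, hp, hpd⟩ := Nat.exists_prime_and_dvd (n := orderOf (χ g))
    (fun h => hχg (orderOf_eq_one_iff.1 h))
  set m := n / p ^ n.factorization p with hm
  set ψ : G →* ℂˣ := (powMonoidHom m).comp χ with hψ
  have hψapply : ∀ x, ψ x = χ x ^ m := fun x => rfl
  have hψg : g ∉ ψ.ker := fun h => by
    rw [MonoidHom.mem_ker, hψapply, ← orderOf_dvd_iff_pow_eq_one] at h
    exact Nat.not_dvd_ordCompl hp hn0 (hpd.trans h)
  have hord : ∀ x, ψ x ^ p ^ n.factorization p = 1 := fun x => by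
    rw [hψapply, ← pow_mul, mul_comm, Nat.ordProj_mul_ordCompl_eq_self]
    have : Finite χ.range := Finite.of_surjective χ.rangeRestrict χ.rangeRestrict_surjective
    exact congrArg Subtype.val (pow_card_eq_one' (x := (⟨χ x, x, rfl⟩ : χ.range)))
  have : Finite ψ.range := Finite.of_surjective ψ.rangeRestrict ψ.rangeRestrict_surjective
  obtain ⟨⟨y, σ, rfl⟩, hgen⟩ := IsCyclic.exists_generator (α := ψ.range)
  obtain ⟨N, -, hN⟩ := (Nat.dvd_prime_pow hp).1 (orderOf_dvd_of_pow_eq_one (hord σ))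
  refine ⟨ψ.ker, p, N, σ, hp, fun x hx => ?_, hψg, fun k => ?_, fun x => ?_⟩
  · rw [MonoidHom.mem_ker, hψapply, hχ, MonoidHom.comp_apply, QuotientGroup.mk'_apply,
      (QuotientGroup.eq_one_iff x).2 hx, map_one, one_pow]
  · rw [MonoidHom.mem_ker, map_pow, ← hN, orderOf_dvd_iff_pow_eq_one]
  · obtain ⟨j, hj⟩ := Subgroup.mem_zpowers_iff.1 (hgen ⟨ψ x, x, rfl⟩)
    have hj' : ψ σ ^ j = ψ x := congrArg Subtype.val hj
    have hpos : (0 : ℤ) < (p : ℤ) ^ N := pow_pos (by exact_mod_cast hp.pos) _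
    refine ⟨(j % (p : ℤ) ^ N).toNat, ?_, (σ ^ (j % (p : ℤ) ^ N).toNat)⁻¹ * x, ?_,
      (mul_inv_cancel_left _ _).symm⟩
    · have := Int.emod_lt_of_pos j hpos
      have := Int.emod_nonneg j hpos.ne'
      rw [← Int.ofNat_lt]
      push_cast
      omega
    · rw [MonoidHom.mem_ker, map_mul, map_inv, map_pow, ← hj', ← zpow_natCast (ψ σ),
        Int.toNat_of_nonneg (Int.emod_nonneg j hpos.ne'), inv_mul_eq_one]
      conv_rhs => rw [← Int.emod_add_mul_ediv j ((p : ℤ) ^ N)]
      rw [zpow_add, zpow_mul, ← Nat.cast_pow, zpow_natCast, ← hN, pow_orderOf_eq_one, one_zpow,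
        mul_one]

namespace TotallyRamified

variable {G L : Type*} [CommGroup G] [Field L] [MulSemiringAction G L] (T : TotallyRamified G L)

/-- `min (ij x) b` as an integer. -/
def cutAt (b : ℤ) (x : G) : ℤ := (min (T.ij x) (b : WithTop ℤ)).untopD 0

theorem coe_cutAt (b : ℤ) (x : G) : (T.cutAt b x : WithTop ℤ) = min (T.ij x) (b : WithTop ℤ) := by
  obtain ⟨a, ha, -⟩ := WithTop.le_coe_iff.1 (min_le_right (T.ij x) (b : WithTop ℤ))
  rw [cutAt, ha]
  rfl

theorem sum_cutAt_coset [Fintype G] (hfaith : ∀ g, T.ij g = ⊤ → g = 1) {g : G} {b : ℤ}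
    (hg : T.ij g = (b : WithTop ℤ)) {H : Subgroup G} [Fintype H] (hgH : g ∉ H)
    (hK : ∀ x, (b : WithTop ℤ) < T.ij x → x ∈ H) :
    ∀ b' : ℤ, (T.quot (H := H) fun h hh => Subtype.ext (hfaith h hh)).ij g = (b' : WithTop ℤ) →
      ∀ x : G, ∑ h : H, T.cutAt b (x * h) = (Fintype.card H : ℤ) *
        (min ((T.quot (H := H) fun h hh => Subtype.ext (hfaith h hh)).ij x)
          (b' : WithTop ℤ)).untopD 0 := by
  classical
  set hH : ∀ h : H, T.ij (h : G) = ⊤ → h = 1 := fun h hh => Subtype.ext (hfaith h hh)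
  intro b' hb' x
  set e := Fintype.card H with he
  have he0 : (0 : ℤ) < e := by exact_mod_cast Fintype.card_pos
  have hgh : ∀ h : H, T.ij (g * h) = min (T.ij (h : G)) (b : WithTop ℤ) := fun h => by
    have hle : T.ij (g * h) ≤ (b : WithTop ℤ) := not_lt.1 fun hlt => hgH (by
      have := H.mul_mem (hK _ hlt) (H.inv_mem h.2)
      rwa [mul_inv_cancel_right] at this)
    rcases lt_or_ge (T.ij (h : G)) (b : WithTop ℤ) with hlt | hge
    · rw [min_eq_left hlt.le, mul_comm, T.ij_mul_eq_left (hg ▸ hlt)]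
    · rw [min_eq_right hge]
      exact le_antisymm hle (le_trans (le_min hg.ge hge) (T.min_ij_le_ij_mul _ _))
  have hb'' : (e : ℤ) * b' = ∑ h : H, T.cutAt b (h : G) := by
    refine WithTop.coe_inj.1 ?_
    have h1 := T.ij_quot hH g
    rw [hb', WithTop.map_coe] at h1
    rw [h1, WithTop.coe_sum]
    exact Finset.sum_congr rfl fun h _ => by rw [hgh, T.coe_cutAt]
  by_cases hA : ∃ h₀ : H, (b : WithTop ℤ) ≤ T.ij (x * h₀)
  · obtain ⟨h₀, hh₀⟩ := hA
    set x₀ := x * (h₀ : G) with hx₀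
    have hshift : ∑ h : H, T.cutAt b (x * h) = ∑ h : H, T.cutAt b (x₀ * h) :=
      (Fintype.sum_equiv (Equiv.mulLeft h₀) _ _ fun h => by simp [hx₀, mul_assoc]).symm
    have hcut : ∀ h : H, T.cutAt b (x₀ * h) = T.cutAt b (h : G) := fun h => by
      refine WithTop.coe_inj.1 ?_
      rw [T.coe_cutAt, T.coe_cutAt]
      rcases lt_or_ge (T.ij (h : G)) (b : WithTop ℤ) with hlt | hge
      · rw [mul_comm, T.ij_mul_eq_left (lt_of_lt_of_le hlt hh₀)]
      · rw [min_eq_right hge, min_eq_right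
          (le_trans (le_min hh₀ hge) (T.min_ij_le_ij_mul _ _))]
    rw [hshift, Finset.sum_congr rfl fun h _ => hcut h, ← hb'']
    have hge : (b' : WithTop ℤ) ≤ (T.quot hH).ij x := by
      have h1 := T.ij_quot hH x
      rw [show ∑ h : H, T.ij (x * h) = ∑ h : H, T.ij (x₀ * h) from
        (Fintype.sum_equiv (Equiv.mulLeft h₀) _ _ fun h => by simp [hx₀, mul_assoc]).symm] at h1
      have h2 : (((e : ℤ) * b' : ℤ) : WithTop ℤ) ≤ ∑ h : H, T.ij (x₀ * h) := by
        rw [hb'', WithTop.coe_sum]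
        refine Finset.sum_le_sum fun h _ => ?_
        rw [← hcut, T.coe_cutAt]
        exact min_le_left _ _
      rw [← h1] at h2
      revert h2
      generalize (T.quot hH).ij x = q
      induction q using WithTop.recTopCoe with
      | top => exact fun _ => le_top
      | coe q =>
        intro h2
        rw [WithTop.map_coe, WithTop.coe_le_coe] at h2
        exact WithTop.coe_le_coe.2 (le_of_mul_le_mul_left h2 he0)
    rw [min_eq_right hge, WithTop.untopD_coe]
  · push Not at hA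
    have hcut : ∀ h : H, (T.cutAt b (x * h) : WithTop ℤ) = T.ij (x * h) := fun h => by
      rw [T.coe_cutAt, min_eq_left (hA h).le]
    obtain ⟨h₀, -, hmax⟩ := Finset.exists_max_image (Finset.univ : Finset H)
      (fun h => T.ij (x * h)) Finset.univ_nonempty
    set x₀ := x * (h₀ : G) with hx₀
    have hshift : ∑ h : H, T.cutAt b (x * h) = ∑ h : H, T.cutAt b (x₀ * h) :=
      (Fintype.sum_equiv (Equiv.mulLeft h₀) _ _ fun h => by simp [hx₀, mul_assoc]).symm
    have hle : ∑ h : H, T.cutAt b (x * h) ≤ (e : ℤ) * b' := by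
      rw [hshift, hb'']
      refine Finset.sum_le_sum fun h _ => WithTop.coe_le_coe.1 ?_
      have hsmall : T.ij (x₀ * h) < (b : WithTop ℤ) := by
        simpa [hx₀, mul_assoc] using hA (h₀ * h)
      rw [T.coe_cutAt, T.coe_cutAt, min_eq_left hsmall.le, le_min_iff]
      refine ⟨not_lt.1 fun hlt => ?_, hsmall.le⟩
      have h1 : T.ij x₀ = T.ij (h : G) := by
        have := T.ij_mul_eq_left (g := (h : G)⁻¹) (h := x₀ * h) (by rwa [T.ij_inv])
        rwa [mul_comm x₀, inv_mul_cancel_left, T.ij_inv] at this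
      have h2 := hmax (h₀ * h) (Finset.mem_univ _)
      rw [Subgroup.coe_mul, ← mul_assoc, ← hx₀, h1] at h2
      exact absurd hlt (not_lt.2 h2)
    have h1 := T.ij_quot hH x
    rw [Finset.sum_congr rfl fun h _ => (hcut h).symm, ← WithTop.coe_sum] at h1
    obtain ⟨q, hq, hq'⟩ : ∃ q : ℤ, (T.quot hH).ij x = (q : WithTop ℤ) ∧
        (e : ℤ) * q = ∑ h : H, T.cutAt b (x * h) := by
      obtain ⟨q, hq, hq'⟩ := exists_of_map_eq_coe h1
      exact ⟨q, hq, hq'⟩
    rw [← hq', hq, ← WithTop.coe_min, WithTop.untopD_coe,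
      min_eq_left (le_of_mul_le_mul_left (hq' ▸ hle) he0)]

/-- **Integrality at a jump**. -/
theorem card_dvd_sum_cutAt [Fintype G] (hfaith : ∀ g, T.ij g = ⊤ → g = 1) {g : G} {b : ℤ}
    (hg : T.ij g = (b : WithTop ℤ)) : (Fintype.card G : ℤ) ∣ ∑ x : G, T.cutAt b x := by
  classical
  obtain ⟨H, p, N, σ, hp, hKH, hgH, hmem, hrep⟩ :=
    exists_cyclic_quotient (T.ijGE ((b + 1 : ℤ) : WithTop ℤ)) (g := g) (fun h => by
      have h' : ((b + 1 : ℤ) : WithTop ℤ) ≤ T.ij g := h
      rw [hg, WithTop.coe_le_coe] at h'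
      omega)
  have : Fact p.Prime := ⟨hp⟩
  set hH : ∀ h : H, T.ij (h : G) = ⊤ → h = 1 := fun h hh => Subtype.ext (hfaith h hh)
  have hK : ∀ x, (b : WithTop ℤ) < T.ij x → x ∈ H := fun x hx =>
    hKH (add_one_le_of_lt_withTop hx)
  set Q := T.quot hH with hQ
  have hQH : ∀ h ∈ H, Q.ij h = ⊤ := fun h hh =>
    (Q.ij_eq_top_iff h).2 (Subtype.ext (T.normπ_mem H ⟨h, hh⟩))
  have hQmul : ∀ x, ∀ h ∈ H, Q.ij (x * h) = Q.ij x := fun x h hh => by
    rw [ij, ij, mul_smul, (Q.ij_eq_top_iff h).1 (hQH h hh)]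
  have hσN : Q.ij (σ ^ p ^ N) = ⊤ := hQH _ ((hmem _).2 dvd_rfl)
  -- the value of the jump in the quotient
  obtain ⟨k, hk, h, hh, hgk⟩ := hrep g
  have hk0 : k ≠ 0 := fun h0 => hgH (by rw [hgk, h0, pow_zero, one_mul]; exact hh)
  set r := padicValNat p k with hr
  have hrN : r < N := not_le.1 fun hle => by
    have := Nat.le_of_dvd (Nat.pos_of_ne_zero hk0)
      ((pow_dvd_pow p hle).trans pow_padicValNat_dvd)
    omega
  have hgr : Q.ij g = Q.ij (σ ^ p ^ r) := by rw [hgk, hQmul _ _ hh, Q.ij_pow_eq hp hσN hk0]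
  obtain ⟨b', hb'⟩ : ∃ b' : ℤ, Q.ij g = (b' : WithTop ℤ) := by
    have h1 := T.ij_quot hH g
    obtain ⟨a, -, ha⟩ : ∃ a : ℤ, a = ∑ h : H, T.cutAt b (g * h) ∧
        (∑ h : H, T.ij (g * h)) = (a : WithTop ℤ) := ⟨_, rfl, by
      rw [WithTop.coe_sum]
      refine Finset.sum_congr rfl fun h _ => ?_
      rw [T.coe_cutAt, min_eq_left (not_lt.1 fun hlt => hgH (by
        have := H.mul_mem (hK _ hlt) (H.inv_mem h.2)
        rwa [mul_inv_cancel_right] at this))]⟩
    rw [ha] at h1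
    obtain ⟨q, hq, -⟩ := exists_of_map_eq_coe h1
    exact ⟨q, hq⟩
  -- the values on the quotient
  set m : ℕ → ℤ := fun s => if s < N then
    (min (Q.ij (σ ^ p ^ s)) (b' : WithTop ℤ)).untopD 0 else b' with hm
  have hcong : ∀ s < N, (p : ℤ) ^ (0 + s + 1) ∣ m (s + 1) - m s := by
    intro s hs
    have htop : ∀ t, r ≤ t → (min (Q.ij (σ ^ p ^ t)) (b' : WithTop ℤ)).untopD 0 = b' := by
      intro t ht
      rw [min_eq_right (by rw [← hb', hgr]; exact Q.ij_pow_le ht), WithTop.untopD_coe]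
    have hm1 : r ≤ s + 1 → m (s + 1) = b' := fun h1 => by
      simp only [hm]; split_ifs
      · exact htop _ h1
      · rfl
    rw [zero_add]
    rcases le_or_gt r s with hrs | hsr
    · rw [hm1 (by omega)]
      simp [hm, hs, htop s hrs]
    · have hlow : ∀ t ≤ r, ∃ c : ℤ, Q.ij (σ ^ p ^ t) = (c : WithTop ℤ) ∧ c ≤ b' := fun t ht => by
        have h1 : Q.ij (σ ^ p ^ t) ≤ (b' : WithTop ℤ) := by
          rw [← hb', hgr]; exact Q.ij_pow_le ht
        obtain ⟨c, hc, hcb⟩ := WithTop.le_coe_iff.1 h1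
        exact ⟨c, hc, hcb⟩
      obtain ⟨c, hc, hcb⟩ := hlow s hsr.le
      obtain ⟨d, hd, hdb⟩ := hlow (s + 1) hsr
      simp only [hm, if_pos hs, if_pos (show s + 1 < N by omega), hc, hd, ← WithTop.coe_min,
        WithTop.untopD_coe, min_eq_left hcb, min_eq_left hdb]
      exact Q.sen hp s hσN hc hd
  have hlev : ∀ k < p ^ N, (min (Q.ij (σ ^ k)) (b' : WithTop ℤ)).untopD 0 = levelFun p N m k := by
    intro k hk
    rcases Nat.eq_zero_or_pos k with rfl | hk'
    · simp [levelFun, hm, Q.ij_one]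
    · have hv : padicValNat p k < N := not_le.1 fun hle => by
        have := Nat.le_of_dvd hk' ((pow_dvd_pow p hle).trans pow_padicValNat_dvd)
        omega
      rw [levelFun, if_neg hk'.ne', Q.ij_pow_eq hp hσN hk'.ne']
      simp [hm, hv]
  -- the decomposition of the group
  have hbij : Function.Bijective fun kh : Fin (p ^ N) × H => σ ^ (kh.1 : ℕ) * (kh.2 : G) := by
    refine ⟨fun a c hac => ?_, fun x => ?_⟩
    · have key : ∀ a c : Fin (p ^ N) × H, (a.1 : ℕ) ≤ c.1 →
          σ ^ (a.1 : ℕ) * (a.2 : G) = σ ^ (c.1 : ℕ) * (c.2 : G) → a = c := by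
        intro a c hle he
        have h1 : σ ^ ((c.1 : ℕ) - a.1) = (a.2 : G) * (c.2 : G)⁻¹ := by
          rw [eq_mul_inv_iff_mul_eq, ← mul_left_cancel_iff (a := σ ^ (a.1 : ℕ)), ← mul_assoc,
            ← pow_add, Nat.add_sub_cancel' hle, he]
        have h2 : p ^ N ∣ (c.1 : ℕ) - a.1 :=
          (hmem _).1 (h1 ▸ H.mul_mem a.2.2 (H.inv_mem c.2.2))
        have h3 : (a.1 : ℕ) = c.1 := by
          rcases Nat.eq_zero_or_pos ((c.1 : ℕ) - a.1) with h | h
          · omega
          · have := Nat.le_of_dvd h h2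
            have := c.1.2
            omega
        rw [h3] at he
        exact Prod.ext (Fin.ext h3) (Subtype.ext (mul_left_cancel he))
      rcases le_total (a.1 : ℕ) (c.1 : ℕ) with h | h
      · exact key a c h hac
      · exact (key c a h hac.symm).symm
    · obtain ⟨k, hk, h, hh, rfl⟩ := hrep x
      exact ⟨(⟨k, hk⟩, ⟨h, hh⟩), rfl⟩
  have hcard : (Fintype.card G : ℤ) = (p : ℤ) ^ N * (Fintype.card H : ℤ) := by
    rw [← Fintype.card_of_bijective hbij, Fintype.card_prod, Fintype.card_fin]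
    push_cast
    ring
  have hsum : ∑ x : G, T.cutAt b x =
      (Fintype.card H : ℤ) * ∑ k ∈ Finset.range (p ^ N), levelFun p N m k := by
    rw [← hbij.sum_comp, Fintype.sum_prod_type, Finset.sum_range, Finset.mul_sum]
    refine Finset.sum_congr rfl fun k _ => ?_
    dsimp only
    rw [T.sum_cutAt_coset hfaith hg hgH hK b' hb', hlev _ k.2]
  have h1 := dvd_sum_levelFun hp N 0 m hcong
  rw [zero_add] at h1
  rw [hsum, hcard, mul_comm ((p : ℤ) ^ N)]
  exact mul_dvd_mul_left _ (by simpa using dvd_add h1 (dvd_mul_right ((p : ℤ) ^ N) (m 0)))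

end TotallyRamified

end Fermat.Agent.HasseArf
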