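import Fermat.Agent.HasseArf.Lower
import Mathlib.Algebra.Polynomial.BigOperators
import Mathlib.LinearAlgebra.LinearIndependent.Basic
import Mathlib.RingTheory.Ideal.Quotient.Basic

/-!
# The residue field and a subgroup

An automorphism trivial on the residues of the fixed field of a subgroup agrees with an element
of the subgroup on all residues, and the fixed field has an element whose valuation is the order
of the inertia subgroup.
-/

set_option autoImplicit false

noncomputable section

open Polynomial

namespace Fermat.Agent.HasseArf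

variable {G L : Type*} [Field L] [Group G] [MulSemiringAction G L]
  (v : AddValuation L (WithTop ℤ))

/-- The integral elements. -/
def integralSubring : Subring L where
  carrier := {x | 0 ≤ v x}
  zero_mem' := by simp only [Set.mem_ofPred_eq, AddValuation.map_zero, le_top]
  one_mem' := by simp only [Set.mem_ofPred_eq, AddValuation.map_one, le_refl]
  add_mem' := fun {x y} hx hy => by
    change 0 ≤ v (x + y)
    exact AddValuation.map_le_add _ hx hy
  neg_mem' := fun {x} hx => by simpa only [Set.mem_ofPred_eq, AddValuation.map_neg] using hx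
  mul_mem' := fun {x y} hx hy => by
    simp only [Set.mem_ofPred_eq, AddValuation.map_mul]
    exact add_nonneg hx hy

/-- The integral elements of positive valuation. -/
def positiveIdeal : Ideal (integralSubring v) where
  carrier := {x | 0 < v (x : L)}
  zero_mem' := by
    simp only [Set.mem_ofPred_eq, ZeroMemClass.coe_zero, AddValuation.map_zero]
    exact WithTop.coe_lt_top _
  add_mem' := fun {x y} hx hy => by
    change 0 < v ((x : L) + y)
    exact AddValuation.map_lt_add _ hx hy
  smul_mem' := fun c x hx => by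
    change 0 < v ((c : L) * x)
    rw [AddValuation.map_mul]
    exact lt_of_lt_of_le hx (le_add_of_nonneg_left c.2)

theorem mem_positiveIdeal {x : integralSubring v} : x ∈ positiveIdeal v ↔ 0 < v (x : L) :=
  Iff.rfl

instance positiveIdeal_isPrime : (positiveIdeal v).IsPrime where
  ne_top' := fun h => by
    have h1 : (1 : integralSubring v) ∈ positiveIdeal v := by rw [h]; exact Submodule.mem_top
    rw [mem_positiveIdeal, OneMemClass.coe_one, AddValuation.map_one] at h1
    exact lt_irrefl _ h1
  mem_or_mem' := fun {x y} h => by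
    simp only [mem_positiveIdeal, Subring.coe_mul, AddValuation.map_mul] at h ⊢
    by_contra hc
    push Not at hc
    exact absurd h (not_lt.2 (add_nonpos hc.1 hc.2))

/-- The residue ring. -/
def ResidueRing : Type _ := integralSubring v ⧸ positiveIdeal v

instance : CommRing (ResidueRing v) := inferInstanceAs (CommRing (_ ⧸ positiveIdeal v))

instance : IsDomain (ResidueRing v) := inferInstanceAs (IsDomain (_ ⧸ positiveIdeal v))

/-- Reduction. -/
def residueMap : integralSubring v →+* ResidueRing v := Ideal.Quotient.mk (positiveIdeal v)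

theorem residueMap_eq_iff {x y : integralSubring v} :
    residueMap v x = residueMap v y ↔ 0 < v ((x : L) - y) :=
  Ideal.Quotient.eq.trans (mem_positiveIdeal v)

theorem residueMap_eq_zero_iff {x : integralSubring v} : residueMap v x = 0 ↔ 0 < v (x : L) :=
  Ideal.Quotient.eq_zero_iff_mem.trans (mem_positiveIdeal v)

variable {v} (hv : ∀ (g : G) (x : L), v (g • x) = v x)

/-- An automorphism on the integral elements. -/
def smulIntegral (g : G) : integralSubring v →+* integralSubring v :=
  ((MulSemiringAction.toRingHom G L g).comp (integralSubring v).subtype).codRestrict _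
    fun x => show 0 ≤ v (g • (x : L)) by rw [hv]; exact x.2

/-- An automorphism followed by reduction. -/
def smulResidue (g : G) : integralSubring v →+* ResidueRing v :=
  (residueMap v).comp (smulIntegral hv g)

theorem coe_smulIntegral (g : G) (x : integralSubring v) :
    (smulIntegral hv g x : L) = g • (x : L) :=
  rfl

theorem smulResidue_apply_eq_iff (g h : G) (x : integralSubring v) :
    smulResidue hv g x = smulResidue hv h x ↔ 0 < v (g • (x : L) - h • (x : L)) := by
  simp only [smulResidue, RingHom.comp_apply, residueMap_eq_iff, coe_smulIntegral]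

theorem mem_lowerGroup_zero_iff (g : G) :
    g ∈ lowerGroup v hv 0 ↔ ∀ x : L, 0 ≤ v x → 0 < v (g • x - x) :=
  ⟨fun h x hx => lt_of_lt_of_le (WithTop.coe_lt_coe.2 (show (0 : ℤ) < ((0 + 1 : ℕ) : ℤ) by omega))
      (h x hx),
    fun h x hx => add_one_le_of_lt_withTop (a := 0) (h x hx)⟩

theorem inv_mul_mem_lowerGroup_zero {g h : G} (e : smulResidue hv g = smulResidue hv h) :
    h⁻¹ * g ∈ lowerGroup v hv 0 :=
  (mem_lowerGroup_zero_iff hv _).2 fun x hx => by
    have h1 := (smulResidue_apply_eq_iff hv g h ⟨x, hx⟩).1 (RingHom.congr_fun e _)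
    rw [← hv h⁻¹, smul_sub, inv_smul_smul, ← mul_smul] at h1
    exact h1

/-- The residue action of a subgroup is surjective onto the automorphisms fixing the residues of
the fixed field. -/
theorem exists_smulResidue_eq (H : Subgroup G) [Finite H] {g : G}
    (hg : ∀ x : L, (∀ h : H, (h : G) • x = x) → 0 ≤ v x → 0 < v (g • x - x)) :
    ∃ h : H, smulResidue hv g = smulResidue hv (h : G) := by
  classical
  have : Fintype H := Fintype.ofFinite H
  by_contra! hne
  have hne' : ∀ h : H, ∃ x, smulResidue hv g x ≠ smulResidue hv (h : G) x := fun h => by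
    by_contra! hh
    exact hne h (RingHom.ext hh)
  choose x hx using hne'
  obtain ⟨e⟩ : Nonempty (H ≃ Fin (Fintype.card H)) := ⟨Fintype.equivFin H⟩
  set X₀ : (integralSubring v)[X] := ∑ h : H, C (x h) * X ^ (e h : ℕ) with hX₀
  set P : (integralSubring v)[X][X] :=
    ∏ h : H, (X - C (X₀.map (smulIntegral hv (h : G)))) with hP
  have hfix : ∀ h' : H, P.map (mapRingHom (smulIntegral hv (h' : G))) = P := fun h' => by
    rw [hP, Polynomial.map_prod]
    refine Fintype.prod_equiv (Equiv.mulLeft h') _ _ fun h => ?_
    rw [Polynomial.map_sub, map_X, map_C, coe_mapRingHom, Polynomial.map_map]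
    congr 3
    exact RingHom.ext fun y => Subtype.ext (mul_smul _ _ (y : L)).symm
  have hres : P.map (mapRingHom (smulResidue hv g)) = P.map (mapRingHom (smulResidue hv 1)) := by
    ext i j
    simp only [coeff_map, coe_mapRingHom]
    rw [smulResidue_apply_eq_iff, one_smul]
    refine hg _ (fun h' => ?_) ((P.coeff i).coeff j).2
    conv_rhs => rw [← hfix h']
    rw [coeff_map, coe_mapRingHom, coeff_map, coe_smulIntegral]
  have h0 : (P.map (mapRingHom (smulResidue hv g))).eval (X₀.map (smulResidue hv g)) = 0 := by
    rw [hP, Polynomial.map_prod, eval_prod]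
    refine Finset.prod_eq_zero (Finset.mem_univ (1 : H)) ?_
    rw [Polynomial.map_sub, map_X, map_C, eval_sub, eval_X, eval_C, coe_mapRingHom,
      Polynomial.map_map, sub_eq_zero]
    congr 1
    exact RingHom.ext fun y => congrArg (smulResidue hv g) (Subtype.ext (one_smul G (y : L)).symm)
  rw [hres, hP, Polynomial.map_prod, eval_prod, Finset.prod_eq_zero_iff] at h0
  obtain ⟨h, -, h0⟩ := h0
  rw [Polynomial.map_sub, map_X, map_C, eval_sub, eval_X, eval_C, coe_mapRingHom,
    Polynomial.map_map, sub_eq_zero] at h0
  refine hx h ?_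
  have hcomp : (smulResidue hv 1).comp (smulIntegral hv (h : G)) = smulResidue hv (h : G) :=
    RingHom.ext fun y => congrArg (residueMap v)
      (Subtype.ext (one_smul G ((h : G) • (y : L))))
  rw [hcomp] at h0
  have h1 := congrArg (fun q => q.coeff (e h : ℕ)) h0
  simpa [hX₀, Polynomial.map_sum, finsetSum_coeff, coeff_X_pow, ← Fin.ext_iff] using h1

variable [Finite G]

/-- An element of the fixed field with valuation the order of the inertia subgroup. -/
theorem exists_fixed_val_eq (hπ : ∃ π : L, v π = ((1 : ℤ) : WithTop ℤ))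
    (hperf : ∀ p : ℕ, p.Prime → 0 < v (p : L) → ∀ x, 0 ≤ v x → ∃ y, 0 < v (x - y ^ p))
    (H : Subgroup G) :
    ∃ y : L, (∀ h : H, (h : G) • y = y) ∧
      v y = ((Nat.card ((lowerGroup v hv 0).subgroupOf H) : ℤ) : WithTop ℤ) := by
  classical
  obtain ⟨π, hπ⟩ := hπ
  set H₀ := (lowerGroup v hv 0).subgroupOf H with hH₀
  have : Fintype H₀ := Fintype.ofFinite _
  have : Fintype (H ⧸ H₀) := Fintype.ofFinite _
  set π₁ : L := ∏ k : H₀, ((k : H) : G) • π with hπ₁
  have hπ₁fix : ∀ k : H₀, ((k : H) : G) • π₁ = π₁ := fun k => by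
    rw [hπ₁, Finset.smul_prod']
    exact Fintype.prod_equiv (Equiv.mulLeft k) _ _ fun a => by simp [mul_smul]
  have hvπ₁ : v π₁ = ((Nat.card H₀ : ℤ) : WithTop ℤ) := by
    have key : ∀ t : Finset H₀,
        v (∏ k ∈ t, ((k : H) : G) • π) = ((t.card : ℤ) : WithTop ℤ) := fun t => by
      induction t using Finset.induction with
      | empty => simp [AddValuation.map_one]
      | insert a t ha ih =>
        rw [Finset.prod_insert ha, Finset.card_insert_of_notMem ha, AddValuation.map_mul, hv,
          hπ, ih, ← WithTop.coe_add]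
        push_cast
        rw [add_comm]
    rw [hπ₁, key, Finset.card_univ, Nat.card_eq_fintype_card]
  have hπ₁0 : π₁ ≠ 0 := fun h => WithTop.coe_ne_top (a := ((Nat.card H₀ : ℤ)))
    (by rw [← hvπ₁, h, AddValuation.map_zero])
  have hu : ∀ g : G, v (g • π₁ / π₁) = 0 := fun g => by
    rw [AddValuation.map_div, hv, hvπ₁, ← WithTop.LinearOrderedAddCommGroup.coe_sub, sub_self]
    rfl
  set u : H ⧸ H₀ → integralSubring v := fun q =>
    ⟨(q.out : G) • π₁ / π₁, (hu _).ge⟩ with hu'
  -- distinct cosets act differently on the residues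
  let ψ : H ⧸ H₀ → (integralSubring v →* ResidueRing v) := fun q =>
    (smulResidue hv (q.out : G)).toMonoidHom
  have hψ : Function.Injective ψ := fun q q' e => by
    have h1 := inv_mul_mem_lowerGroup_zero hv (g := (q.out : G)) (h := (q'.out : G))
      (RingHom.ext fun y => DFunLike.congr_fun e y)
    rw [← Subgroup.coe_inv, ← Subgroup.coe_mul, ← Subgroup.mem_subgroupOf, ← hH₀,
      ← QuotientGroup.eq, QuotientGroup.out_eq', QuotientGroup.out_eq'] at h1
    exact h1.symm
  obtain ⟨x, hx⟩ : ∃ x : integralSubring v,
      ∑ q, residueMap v (u q) * smulResidue hv (q.out : G) x ≠ 0 := by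
    by_contra! hall
    have h1 := Fintype.linearIndependent_iff.1
      ((linearIndependent_monoidHom (integralSubring v) (ResidueRing v)).comp ψ hψ)
      (fun q => residueMap v (u q)) (funext fun x => by
        simpa [ψ, smul_eq_mul] using hall x) ((1 : H) : H ⧸ H₀)
    rw [residueMap_eq_zero_iff] at h1
    exact absurd h1 (by simp only [hu', hu]; exact lt_irrefl _)
  obtain ⟨a, ha, hxa⟩ := exists_fixed_rep v (G := lowerGroup v hv 0) (fun g y => hv g y)
    (fun g y hy => (mem_lowerGroup_zero_iff hv _).1 g.2 y hy) hperf x.2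
  have ha0 : 0 ≤ v a := nonneg_of_pos_sub v x.2 hxa
  have hafix : ∀ k : H₀, ((k : H) : G) • a = a := fun k => ha ⟨_, k.2⟩
  refine ⟨∑ q : H ⧸ H₀, (q.out : G) • (a * π₁), fun h => ?_, ?_⟩
  · rw [Finset.smul_sum]
    refine Fintype.sum_equiv (MulAction.toPerm h) _ _ fun q => ?_
    obtain ⟨k, hk⟩ := QuotientGroup.mk_out_eq_mul H₀ (h * q.out)
    have e : (h • q : H ⧸ H₀) = ((h * q.out : H) : H ⧸ H₀) := by
      conv_lhs => rw [← q.out_eq]
      rfl
    rw [MulAction.toPerm_apply, e, hk, Subgroup.coe_mul, Subgroup.coe_mul, mul_smul _ ((k : H) : G),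
      smul_mul' ((k : H) : G), hafix k, hπ₁fix k, mul_smul]
  · have hsum : ∑ q : H ⧸ H₀, (q.out : G) • (a * π₁) =
        (∑ q : H ⧸ H₀, (u q * smulIntegral hv (q.out : G) ⟨a, ha0⟩ : integralSubring v) :
          integralSubring v) * π₁ := by
      rw [AddSubmonoidClass.coe_finsetSum, Finset.sum_mul]
      refine Finset.sum_congr rfl fun q _ => ?_
      rw [Subring.coe_mul, coe_smulIntegral, smul_mul']
      simp only [hu']
      field_simp
    rw [hsum, AddValuation.map_mul, hvπ₁]
    set z := ∑ q : H ⧸ H₀, u q * smulIntegral hv (q.out : G) ⟨a, ha0⟩ with hz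
    have hz0 : v (z : L) = 0 := by
      refine le_antisymm (not_lt.1 fun hlt => hx ?_) z.2
      rw [← (residueMap_eq_zero_iff v).2 hlt, hz, map_sum]
      refine Finset.sum_congr rfl fun q _ => ?_
      rw [map_mul]
      congr 1
      refine (residueMap_eq_iff v).2 ?_
      change 0 < v ((q.out : G) • (x : L) - (q.out : G) • a)
      rw [← smul_sub, hv]
      exact hxa
    rw [hz0, zero_add]

end Fermat.Agent.HasseArf
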