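import Fermat.Agent.HasseArf.Setting
import Mathlib.Algebra.BigOperators.Intervals
import Mathlib.NumberTheory.Padics.PadicVal.Basic
import Mathlib.Tactic.LinearCombination

/-!
# Sen's congruence

For an automorphism with a period which is a power of `p` the valuations `ij (σ ^ (p ^ s))`
satisfy `ij (σ ^ (p ^ (s + 1))) ≡ ij (σ ^ (p ^ s)) [ZMOD p ^ (s + 1)]`.
-/

set_option autoImplicit false

noncomputable section

namespace Fermat.Agent.HasseArf.TotallyRamified

variable {G L : Type*} [Group G] [Field L] [MulSemiringAction G L] (T : TotallyRamified G L)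

theorem ij_pow_eq {p : ℕ} (hp : p.Prime) {σ : G} {N : ℕ} (hN : T.ij (σ ^ p ^ N) = ⊤) {m : ℕ}
    (hm : m ≠ 0) : T.ij (σ ^ m) = T.ij (σ ^ p ^ padicValNat p m) := by
  have : Fact p.Prime := ⟨hp⟩
  set v := padicValNat p m with hv
  obtain ⟨m', hm'⟩ : p ^ v ∣ m := pow_padicValNat_dvd
  refine le_antisymm ?_ ?_
  · rcases le_or_gt N v with h | h
    · obtain ⟨d, hd⟩ := Nat.exists_eq_add_of_le h
      refine le_top.trans ?_
      rw [← hN, hd, pow_add p N d, pow_mul]
      exact T.ij_le_ij_pow _ _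
    · have hcop : Nat.Coprime m' (p ^ N) := by
        refine (hp.coprime_iff_not_dvd.2 fun hd => ?_).symm.pow_right N
        refine pow_succ_padicValNat_not_dvd (p := p) hm ?_
        rw [← hv, hm', pow_succ]
        exact mul_dvd_mul_left _ hd
      have hb := Nat.gcd_eq_gcd_ab m' (p ^ N)
      rw [hcop] at hb
      have key : σ ^ p ^ v = (σ ^ m) ^ Nat.gcdA m' (p ^ N) *
          (σ ^ p ^ N) ^ ((p ^ v : ℕ) * Nat.gcdB m' (p ^ N) : ℤ) := by
        rw [← zpow_natCast σ m, ← zpow_natCast σ (p ^ N), ← zpow_mul, ← zpow_mul,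
          ← zpow_natCast σ (p ^ v), ← zpow_add, hm']
        congr 1
        push_cast at hb ⊢
        linear_combination (p : ℤ) ^ v * hb
      have h1 : σ ^ m ∈ T.ijGE (T.ij (σ ^ m)) := le_refl (T.ij (σ ^ m))
      have h2 : σ ^ p ^ N ∈ T.ijGE (T.ij (σ ^ m)) :=
        show T.ij (σ ^ m) ≤ T.ij (σ ^ p ^ N) by rw [hN]; exact le_top
      rw [key]
      exact mul_mem (zpow_mem h1 _) (zpow_mem h2 _)
  · rw [hm', pow_mul]
    exact T.ij_le_ij_pow _ _

theorem ij_pow_le {p : ℕ} {σ : G} {s t : ℕ} (h : s ≤ t) :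
    T.ij (σ ^ p ^ s) ≤ T.ij (σ ^ p ^ t) := by
  obtain ⟨d, rfl⟩ := Nat.exists_eq_add_of_le h
  rw [pow_add, pow_mul]
  exact T.ij_le_ij_pow _ _

/-- `∏ σ ^ i π` over `i < n`. -/
def conjProd (σ : G) (n : ℕ) : L := ∏ i ∈ Finset.range n, σ ^ i • T.π

theorem v_conjProd (σ : G) (n : ℕ) : T.v (T.conjProd σ n) = ((n : ℤ) : WithTop ℤ) :=
  T.v_prod_conj _ n

theorem v_smul_conjProd_sub (σ : G) (n : ℕ) :
    T.v ((σ • T.conjProd σ n - T.conjProd σ n) * T.π) =
      ((n : ℤ) : WithTop ℤ) + T.ij (σ ^ n) := by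
  have h : σ • T.conjProd σ n * T.π = T.conjProd σ n * σ ^ n • T.π := by
    rw [conjProd, Finset.smul_prod', ← Finset.prod_range_succ, Finset.prod_range_succ', pow_zero,
      one_smul]
    congr 1
    exact Finset.prod_congr rfl fun i _ => by rw [← mul_smul, pow_succ']
  rw [sub_mul, h, ← mul_sub, AddValuation.map_mul, T.v_conjProd, ij]

/-- **Sen's congruence**. -/
theorem sen {p : ℕ} (hp : p.Prime) : ∀ (s : ℕ) {σ : G} {N : ℕ} {a b : ℤ},
    T.ij (σ ^ p ^ N) = ⊤ → T.ij (σ ^ p ^ s) = (a : WithTop ℤ) →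
      T.ij (σ ^ p ^ (s + 1)) = (b : WithTop ℤ) → (p : ℤ) ^ (s + 1) ∣ b - a := by
  intro s
  induction s using Nat.strong_induction_on with
  | _ s ih =>
  intro σ N a b hN ha hb
  have : Fact p.Prime := ⟨hp⟩
  have hfin : ∀ t ≤ s, ∃ c : ℤ, T.ij (σ ^ p ^ t) = (c : WithTop ℤ) := fun t ht => by
    obtain ⟨c, hc, -⟩ := WithTop.le_coe_iff.1 (ha ▸ T.ij_pow_le (p := p) (σ := σ) ht)
    exact ⟨c, hc⟩
  have htel : ∀ d t, t + d = s → ∀ c : ℤ, T.ij (σ ^ p ^ t) = (c : WithTop ℤ) →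
      (p : ℤ) ^ (t + 1) ∣ a - c := by
    intro d
    induction d with
    | zero =>
      rintro t rfl c hc
      obtain rfl : a = c := WithTop.coe_inj.1 (ha.symm.trans hc)
      simp
    | succ d ihd =>
      intro t ht c hc
      obtain ⟨c', hc'⟩ := hfin (t + 1) (by omega)
      have h1 := dvd_trans (pow_dvd_pow (p : ℤ) (Nat.le_succ _)) (ihd (t + 1) (by omega) c' hc')
      have h2 := ih t (by omega) hN hc hc'
      simpa using dvd_add h1 h2
  have hps : (p : ℤ) ^ s ∣ b - a := by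
    rcases s with _ | s'
    · simp
    refine ih s' (by omega) (σ := σ ^ p) (N := N) ?_ ?_ ?_
    · rw [← pow_mul, mul_comm p, pow_mul]
      exact top_le_iff.1 (hN ▸ T.ij_le_ij_pow _ _)
    · rwa [← pow_mul, ← pow_succ']
    · rwa [← pow_mul, ← pow_succ']
  by_contra hnot
  set P : ℤ := (p : ℤ) ^ (s + 1) with hP
  have hP0 : 0 < P := pow_pos (by exact_mod_cast hp.pos) _
  -- the residue `n₀` of `a - b`
  set n₀ : ℕ := ((a - b) % P).toNat with hn₀
  have hn₀' : (n₀ : ℤ) = (a - b) % P := Int.toNat_of_nonneg (Int.emod_nonneg _ hP0.ne')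
  have hn₀P : P ∣ (n₀ : ℤ) + b - a := by
    rw [hn₀', Int.emod_def]
    exact ⟨-((a - b) / P), by ring⟩
  have hn₀0 : n₀ ≠ 0 := fun h => hnot (by simpa [h] using hn₀P)
  have hv₀ : padicValNat p n₀ = s := by
    refine le_antisymm (Nat.lt_succ_iff.1 (not_le.1 fun h => hnot ?_)) ?_
    · have h1 : P ∣ (n₀ : ℤ) := by
        rw [hP, ← Nat.cast_pow, Int.natCast_dvd_natCast]
        exact (pow_dvd_pow p h).trans pow_padicValNat_dvd
      rw [show b - a = ((n₀ : ℤ) + b - a) - n₀ by ring]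
      exact dvd_sub hn₀P h1
    · refine (padicValNat_dvd_iff_le hn₀0).1 ?_
      rw [← Int.natCast_dvd_natCast, Nat.cast_pow]
      have h1 : (p : ℤ) ^ s ∣ (n₀ : ℤ) + b - a :=
        dvd_trans (pow_dvd_pow (p : ℤ) (Nat.le_succ s)) hn₀P
      have h2 : (n₀ : ℤ) = (n₀ + b - a) - (b - a) := by ring
      rw [h2]
      exact dvd_sub h1 hps
  set x := T.conjProd (σ ^ p) n₀ with hx
  set z := ∑ i ∈ Finset.range p, σ ^ i • x with hz
  have hvz : ((n₀ : ℤ) : WithTop ℤ) ≤ T.v z := AddValuation.map_le_sum _ fun i _ => by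
    rw [T.smul_v, hx, T.v_conjProd]
  have hσz : σ • z - z = σ ^ p • x - x := by
    rw [hz, Finset.smul_sum, ← Finset.sum_sub_distrib,
      Finset.sum_congr rfl fun i _ => show σ • σ ^ i • x - σ ^ i • x =
        (fun i => σ ^ i • x) (i + 1) - (fun i => σ ^ i • x) i by rw [← mul_smul, ← pow_succ'],
      Finset.sum_range_sub (fun i => σ ^ i • x), pow_zero, one_smul]
  set M : ℤ := n₀ + b with hM
  have hE : T.v ((σ • z - z) * T.π) = (M : WithTop ℤ) := by
    rw [hσz, hx, T.v_smul_conjProd_sub, ← pow_mul,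
      T.ij_pow_eq hp hN (Nat.mul_ne_zero hp.ne_zero hn₀0),
      padicValNat.mul hp.ne_zero hn₀0, padicValNat_self, hv₀, add_comm 1 s, hb,
      ← WithTop.coe_add]
  obtain ⟨c, hc, hr⟩ := T.exists_expansion (X := T.conjProd σ) (T.v_conjProd σ) hvz (M.toNat + 1)
  set k := M.toNat + 1 with hk
  set r := z - ∑ i ∈ Finset.range k, c i * T.conjProd σ (n₀ + i) with hr'
  set w : ℕ → L := fun i =>
    c i * (σ • T.conjProd σ (n₀ + i) - T.conjProd σ (n₀ + i)) * T.π with hw
  set e := (σ • r - r) * T.π with he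
  have hdec : (σ • z - z) * T.π = ∑ i ∈ Finset.range k, w i + e := by
    have h1 : σ • ∑ i ∈ Finset.range k, c i * T.conjProd σ (n₀ + i) =
        ∑ i ∈ Finset.range k, c i * σ • T.conjProd σ (n₀ + i) := by
      rw [Finset.smul_sum]
      exact Finset.sum_congr rfl fun i _ => by rw [smul_mul', (hc i).1 σ]
    rw [he, hr', hw, smul_sub, h1, ← Finset.sum_mul, ← add_mul]
    congr 1
    simp only [mul_sub, Finset.sum_sub_distrib]
    ring
  have hte : (M : WithTop ℤ) < T.v e := by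
    refine lt_of_lt_of_le (WithTop.coe_lt_coe.2 (show M < ((n₀ + k : ℕ) : ℤ) by omega)) ?_
    rw [he, AddValuation.map_mul]
    refine le_trans (le_trans hr (AddValuation.map_le_sub _ (T.smul_v σ r).ge le_rfl)) ?_
    exact le_add_of_nonneg_right (le_trans (WithTop.coe_nonneg.2 zero_le_one) T.v_π.ge)
  have hv : ∀ i, T.v (w i) ≤ (M : WithTop ℤ) → ∃ t ≤ s, ∃ m : ℤ,
      T.v (w i) = (m : WithTop ℤ) ∧ (p : ℤ) ^ t ∣ m - a ∧ ¬(p : ℤ) ^ (t + 1) ∣ m - a ∧
      ∃ ct : ℤ, T.ij (σ ^ p ^ t) = (ct : WithTop ℤ) ∧ m = (n₀ + i : ℕ) + ct := by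
    intro i hi
    rcases (hc i).2 with h0 | h0
    · simp [hw, h0, T.v_zero] at hi
    have hT : T.v (w i) = (((n₀ + i : ℕ) : ℤ) : WithTop ℤ) +
        T.ij (σ ^ p ^ padicValNat p (n₀ + i)) := by
      rw [hw]
      simp only
      rw [mul_assoc, AddValuation.map_mul, h0, T.v_smul_conjProd_sub,
        T.ij_pow_eq hp hN (by omega), WithTop.coe_zero, zero_add]
    set t := padicValNat p (n₀ + i) with ht
    have hts : t ≤ s := by
      by_contra hlt
      rw [hT] at hi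
      have h1 : (((n₀ + i : ℕ) : ℤ) : WithTop ℤ) + (b : WithTop ℤ) ≤ (M : WithTop ℤ) :=
        le_trans (add_le_add le_rfl (hb ▸ T.ij_pow_le (p := p) (σ := σ) (Nat.not_le.1 hlt))) hi
      rw [← WithTop.coe_add, WithTop.coe_le_coe, hM] at h1
      obtain rfl : i = 0 := by omega
      rw [add_zero] at ht
      omega
    obtain ⟨ct, hct⟩ := hfin t hts
    refine ⟨t, hts, (n₀ + i : ℕ) + ct, by rw [hT, hct, WithTop.coe_add], ?_, ?_, ct, hct, rfl⟩
    · have h1 := htel (s - t) t (by omega) ct hct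
      have h2 : (p : ℤ) ^ t ∣ ((n₀ + i : ℕ) : ℤ) := by
        rw [← Nat.cast_pow, Int.natCast_dvd_natCast]
        exact pow_padicValNat_dvd
      rw [show ((n₀ + i : ℕ) : ℤ) + ct - a = (n₀ + i : ℕ) - (a - ct) by ring]
      exact dvd_sub h2 (dvd_trans (pow_dvd_pow (p : ℤ) (Nat.le_succ t)) h1)
    · intro hd
      have h1 := htel (s - t) t (by omega) ct hct
      have h2 : (p : ℤ) ^ (t + 1) ∣ ((n₀ + i : ℕ) : ℤ) := by
        simpa using dvd_add hd h1
      rw [← Nat.cast_pow, Int.natCast_dvd_natCast] at h2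
      exact pow_succ_padicValNat_not_dvd (p := p) (by omega) h2
  have hstrict : ∀ i j, i ≠ j → T.v (w i) ≤ (M : WithTop ℤ) → T.v (w j) ≠ T.v (w i) := by
    intro i j hij hi he
    obtain ⟨t, -, m, hm, hm1, hm2, ct, hct, hmi⟩ := hv i hi
    obtain ⟨t', -, m', hm', hm1', hm2', ct', hct', hmj⟩ := hv j (he ▸ hi)
    obtain rfl : m' = m := WithTop.coe_inj.1 (hm'.symm.trans (he.trans hm))
    obtain rfl : t = t' := by
      rcases lt_trichotomy t t' with h | h | h
      · exact absurd (dvd_trans (pow_dvd_pow (p : ℤ) h) hm1') hm2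
      · exact h
      · exact absurd (dvd_trans (pow_dvd_pow (p : ℤ) h) hm1) hm2'
    obtain rfl : ct' = ct := WithTop.coe_inj.1 (hct'.symm.trans hct)
    omega
  obtain ⟨i₀, hi₀, hmin⟩ := Finset.exists_min_image (Finset.range k) (fun i => T.v (w i))
    ⟨0, Finset.mem_range.2 (by omega)⟩
  rcases le_or_gt (T.v (w i₀)) (M : WithTop ℤ) with hle | hlt
  · obtain ⟨t, hts, m, hm, -, hm2, -⟩ := hv i₀ hle
    rw [hdec, ← Finset.add_sum_erase _ _ hi₀, add_assoc,
      AddValuation.map_add_eq_of_lt_left] at hE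
    · obtain rfl : M = m := WithTop.coe_inj.1 (hE.symm.trans hm)
      refine hm2 (dvd_trans (pow_dvd_pow (p : ℤ) (by omega)) (hn₀P.trans ?_))
      rw [hM]
    · refine AddValuation.map_lt_add _ (AddValuation.map_lt_sum _ (by rw [hm]; exact
        WithTop.coe_ne_top) fun j hj => ?_) (lt_of_le_of_lt hle hte)
      rw [Finset.mem_erase] at hj
      exact lt_of_le_of_ne (hmin j hj.2) (hstrict i₀ j hj.1.symm hle).symm
  · rw [hdec] at hE
    refine absurd hE (ne_of_gt (AddValuation.map_lt_add _ (AddValuation.map_lt_sum _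
      WithTop.coe_ne_top fun j hj => lt_of_lt_of_le hlt (hmin j hj)) hte))

end Fermat.Agent.HasseArf.TotallyRamified
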