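import Mathlib.RingTheory.Valuation.Basic
import Mathlib.Algebra.Ring.Action.Basic
import Mathlib.Algebra.Ring.Action.Field
import Mathlib.Algebra.BigOperators.Group.Finset.Basic
import Mathlib.Algebra.Order.BigOperators.Group.Finset
import Mathlib.Data.Int.Basic
import Mathlib.Tactic.Ring
import Mathlib.Tactic.FieldSimp

/-!
# A discrete valuation with an automorphism group fixing the residue field

`ij g` is the valuation of `g π - π`; it bounds the valuation of `g x - x` for every integral `x`,
and every integral element has expansions with coefficients fixed by the group.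
-/

set_option autoImplicit false

noncomputable section

namespace Fermat.Agent.HasseArf

theorem add_one_le_of_lt_withTop {a : ℤ} {x : WithTop ℤ} (h : (a : WithTop ℤ) < x) :
    ((a + 1 : ℤ) : WithTop ℤ) ≤ x := by
  induction x using WithTop.recTopCoe with
  | top => exact le_top
  | coe b => exact WithTop.coe_le_coe.2 (WithTop.coe_lt_coe.1 h)

theorem le_of_forall_min_natCast_le {a b : WithTop ℤ}
    (h : ∀ k : ℕ, min a ((k : ℤ) : WithTop ℤ) ≤ b) : a ≤ b := by
  induction b using WithTop.recTopCoe with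
  | top => exact le_top
  | coe b =>
    rcases min_le_iff.1 (h (b.toNat + 1)) with h | h
    · exact h
    · rw [WithTop.coe_le_coe] at h
      omega

/-- A field with a valuation with values in `ℤ`, a uniformizer, and a group of automorphisms
preserving the valuation and fixing representatives of all units of the residue field. -/
structure TotallyRamified (G L : Type*) [Group G] [Field L] [MulSemiringAction G L] where
  v : AddValuation L (WithTop ℤ)
  smul_v : ∀ (g : G) (x : L), v (g • x) = v x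
  π : L
  v_π : v π = ((1 : ℤ) : WithTop ℤ)
  rep : ∀ x, v x = ((0 : ℤ) : WithTop ℤ) →
    ∃ c : L, (∀ g : G, g • c = c) ∧ ((0 : ℤ) : WithTop ℤ) < v (x - c)

namespace TotallyRamified

variable {G L : Type*} [Group G] [Field L] [MulSemiringAction G L] (T : TotallyRamified G L)

theorem v_one : T.v 1 = ((0 : ℤ) : WithTop ℤ) := by rw [AddValuation.map_one]; rfl

theorem v_zero : T.v 0 = ⊤ := AddValuation.map_zero _

theorem exists_eq_coe {x : L} (hx : x ≠ 0) : ∃ a : ℤ, T.v x = (a : WithTop ℤ) :=
  ⟨(T.v x).untop ((AddValuation.ne_top_iff _).2 hx), (WithTop.coe_untop _ _).symm⟩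

theorem π_ne_zero : T.π ≠ 0 := fun h => WithTop.coe_ne_top (a := (1 : ℤ))
  (by rw [← T.v_π, h, v_zero])

theorem v_π_pow (i : ℕ) : T.v (T.π ^ i) = ((i : ℤ) : WithTop ℤ) := by
  induction i with
  | zero => rw [pow_zero, T.v_one]; rfl
  | succ i ih =>
    rw [pow_succ, AddValuation.map_mul, ih, T.v_π, ← WithTop.coe_add]
    push_cast
    rfl

theorem v_natCast_nonneg (n : ℕ) : ((0 : ℤ) : WithTop ℤ) ≤ T.v (n : L) := by
  induction n with
  | zero => rw [Nat.cast_zero, v_zero]; exact le_top
  | succ n ih => rw [Nat.cast_succ]; exact AddValuation.map_le_add _ ih T.v_one.ge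

theorem v_prod_conj (g : ℕ → G) (n : ℕ) :
    T.v (∏ i ∈ Finset.range n, g i • T.π) = ((n : ℤ) : WithTop ℤ) := by
  induction n with
  | zero => rw [Finset.prod_range_zero, T.v_one]; rfl
  | succ n ih =>
    rw [Finset.prod_range_succ, AddValuation.map_mul, ih, T.smul_v, T.v_π, ← WithTop.coe_add]
    push_cast
    rfl

/-- The coefficients of expansions. -/
def IsCoeff (c : L) : Prop :=
  (∀ g : G, g • c = c) ∧ (c = 0 ∨ T.v c = ((0 : ℤ) : WithTop ℤ))

theorem IsCoeff.v_nonneg {c : L} (hc : T.IsCoeff c) : ((0 : ℤ) : WithTop ℤ) ≤ T.v c := by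
  rcases hc.2 with h | h
  · rw [h, v_zero]; exact le_top
  · rw [h]

/-- Expansions along a family with one element of each valuation. -/
theorem exists_expansion {X : ℕ → L} (hX : ∀ m, T.v (X m) = ((m : ℤ) : WithTop ℤ)) {x : L}
    {n : ℕ} (hx : ((n : ℤ) : WithTop ℤ) ≤ T.v x) : ∀ k : ℕ, ∃ c : ℕ → L, (∀ i, T.IsCoeff (c i)) ∧
      (((n + k : ℕ) : ℤ) : WithTop ℤ) ≤ T.v (x - ∑ i ∈ Finset.range k, c i * X (n + i))
  | 0 => ⟨fun _ => 0, fun _ => ⟨fun g => smul_zero g, Or.inl rfl⟩, by simpa using hx⟩
  | k + 1 => by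
    obtain ⟨c, hc, hr⟩ := exists_expansion hX hx k
    set r := x - ∑ i ∈ Finset.range k, c i * X (n + i) with hr'
    have hstep : ∃ d, T.IsCoeff d ∧
        (((n + (k + 1) : ℕ) : ℤ) : WithTop ℤ) ≤ T.v (r - d * X (n + k)) := by
      have hsucc : (((n + (k + 1) : ℕ) : ℤ) : WithTop ℤ) = (((n + k : ℕ) : ℤ) + 1 : ℤ) := by
        congr 1
      rw [hsucc]
      rcases hr.lt_or_eq with hlt | heq
      · exact ⟨0, ⟨fun g => smul_zero g, Or.inl rfl⟩,
          by simpa using add_one_le_of_lt_withTop hlt⟩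
      · have hne : X (n + k) ≠ 0 := fun h => WithTop.coe_ne_top (a := ((n + k : ℕ) : ℤ))
          (by rw [← hX, h, v_zero])
        have hq : T.v (r / X (n + k)) = ((0 : ℤ) : WithTop ℤ) := by
          rw [AddValuation.map_div, hX, ← heq, ← WithTop.LinearOrderedAddCommGroup.coe_sub,
            sub_self]
        obtain ⟨d, hd, hd'⟩ := T.rep _ hq
        refine ⟨d, ⟨hd, Or.inr ?_⟩, ?_⟩
        · rw [← hq]
          refine AddValuation.map_eq_of_lt_sub _ ?_
          rw [hq, AddValuation.map_sub_swap]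
          exact hd'
        · rw [show r - d * X (n + k) = (r / X (n + k) - d) * X (n + k) by field_simp,
            AddValuation.map_mul, hX, add_comm ((n + k : ℕ) : ℤ), WithTop.coe_add]
          exact add_le_add (add_one_le_of_lt_withTop hd') le_rfl
    obtain ⟨d, hd, hd'⟩ := hstep
    refine ⟨Function.update c k d, fun i => ?_, ?_⟩
    · rcases eq_or_ne i k with rfl | h
      · rwa [Function.update_self]
      · rw [Function.update_of_ne h]; exact hc i
    · rw [Finset.sum_range_succ, Function.update_self, ← sub_sub,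
        Finset.sum_congr rfl fun i hi => by
          rw [Function.update_of_ne (Finset.mem_range.1 hi).ne]]
      exact hd'

/-- The valuation of `g π - π`. -/
def ij (g : G) : WithTop ℤ := T.v (g • T.π - T.π)

theorem ij_one : T.ij 1 = ⊤ := by rw [ij, one_smul, sub_self, v_zero]

theorem ij_eq_top_iff (g : G) : T.ij g = ⊤ ↔ g • T.π = T.π := by
  rw [ij, AddValuation.top_iff, sub_eq_zero]

theorem one_le_ij (g : G) : ((1 : ℤ) : WithTop ℤ) ≤ T.ij g :=
  AddValuation.map_le_sub _ (by rw [T.smul_v, T.v_π]) T.v_π.ge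

theorem ij_inv (g : G) : T.ij g⁻¹ = T.ij g := by
  rw [ij, ij, ← T.smul_v g, smul_sub, smul_inv_smul, AddValuation.map_sub_swap]

theorem min_ij_le_ij_mul (g h : G) : min (T.ij g) (T.ij h) ≤ T.ij (g * h) := by
  have e : (g * h) • T.π - T.π = g • (h • T.π - T.π) + (g • T.π - T.π) := by
    rw [smul_sub, mul_smul]; ring
  rw [ij, ij, ij, e]
  refine le_trans ?_ (AddValuation.map_add _ _ _)
  rw [T.smul_v, min_comm]

theorem ij_mul_eq_left {g h : G} (hlt : T.ij g < T.ij h) : T.ij (g * h) = T.ij g := by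
  refine le_antisymm ?_ (le_trans (le_min le_rfl hlt.le) (T.min_ij_le_ij_mul g h))
  have h1 := T.min_ij_le_ij_mul (g * h) h⁻¹
  rw [mul_inv_cancel_right, ij_inv] at h1
  rcases min_le_iff.1 h1 with h2 | h2
  · exact h2
  · exact absurd h2 hlt.not_ge

/-- The filtration by `ij`. -/
def ijGE (a : WithTop ℤ) : Subgroup G where
  carrier := {g | a ≤ T.ij g}
  one_mem' := by simp only [Set.mem_ofPred_eq, T.ij_one, le_top]
  mul_mem' := fun {g h} hg hh => le_trans (le_min hg hh) (T.min_ij_le_ij_mul g h)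
  inv_mem' := fun {g} hg => by simpa only [Set.mem_ofPred_eq, T.ij_inv] using hg

theorem ij_le_ij_pow (g : G) (k : ℕ) : T.ij g ≤ T.ij (g ^ k) :=
  (T.ijGE (T.ij g)).pow_mem (x := g) (le_refl (T.ij g)) k

theorem ij_le_v_smul_sub_pow (g : G) (i : ℕ) : T.ij g ≤ T.v (g • T.π ^ i - T.π ^ i) := by
  induction i with
  | zero => rw [pow_zero, smul_one, sub_self, v_zero]; exact le_top
  | succ i ih =>
    have e : g • T.π ^ (i + 1) - T.π ^ (i + 1) =
        g • T.π * (g • T.π ^ i - T.π ^ i) + (g • T.π - T.π) * T.π ^ i := by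
      rw [pow_succ', smul_mul']; ring
    rw [e]
    refine AddValuation.map_le_add _ ?_ ?_
    · rw [AddValuation.map_mul, T.smul_v, T.v_π]
      exact le_trans ih (le_add_of_nonneg_left (WithTop.coe_nonneg.2 zero_le_one))
    · rw [AddValuation.map_mul, T.v_π_pow]
      exact le_add_of_nonneg_right (WithTop.coe_nonneg.2 (Int.natCast_nonneg i))

/-- `ij g` bounds every `g x - x`. -/
theorem ij_le_v_smul_sub (g : G) {x : L} (hx : ((0 : ℤ) : WithTop ℤ) ≤ T.v x) :
    T.ij g ≤ T.v (g • x - x) := by
  refine le_of_forall_min_natCast_le fun k => ?_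
  obtain ⟨c, hc, hr⟩ := T.exists_expansion (X := fun m => T.π ^ m) T.v_π_pow
    (n := 0) (by simpa using hx) k
  simp only [zero_add] at hr
  set r := x - ∑ i ∈ Finset.range k, c i * T.π ^ i with hr'
  have e : g • x - x = ∑ i ∈ Finset.range k, c i * (g • T.π ^ i - T.π ^ i) + (g • r - r) := by
    rw [hr', smul_sub, Finset.smul_sum]
    simp only [smul_mul', (hc _).1 g, mul_sub, Finset.sum_sub_distrib]
    ring
  rw [e]
  refine AddValuation.map_le_add _ ((min_le_left _ _).trans ?_)
    ((min_le_right _ _).trans (AddValuation.map_le_sub _ (by rwa [T.smul_v]) hr))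
  refine AddValuation.map_le_sum _ fun i _ => ?_
  rw [AddValuation.map_mul]
  exact le_trans (T.ij_le_v_smul_sub_pow g i) (le_add_of_nonneg_left (hc i).v_nonneg)

end TotallyRamified

end Fermat.Agent.HasseArf
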