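import Fermat.Agent.HasseArf.Residue
import Mathlib.GroupTheory.QuotientGroup.Basic
import Mathlib.RingTheory.Invariant.Basic

/-!
# Herbrand's theorem on the upper numbering of a quotient

For a normal subgroup `H` the lower group at `φ_H u` of the quotient is the image of the lower
group at `u`, hence `φ = φ_{G/H} ∘ φ_H` and the upper numbering passes to quotients.
-/

set_option autoImplicit false

noncomputable section

namespace Fermat.Agent.HasseArf

variable {G L : Type*} [Field L] [Group G] [MulSemiringAction G L]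

instance quotientFixedFieldAction (H : Subgroup G) [H.Normal] :
    MulSemiringAction (G ⧸ H) (FixedPoints.subfield H L) :=
  inferInstanceAs (MulSemiringAction (G ⧸ H) (FixedPoints.subring L H))

theorem coe_quotient_smul (H : Subgroup G) [H.Normal] (g : G) (x : FixedPoints.subfield H L) :
    ((((g : G ⧸ H) • x : FixedPoints.subfield H L)) : L) = g • (x : L) :=
  rfl

theorem withTop_nsmul_le {e : ℕ} (he : e ≠ 0) {a b : WithTop ℤ} : e • a ≤ e • b ↔ a ≤ b := by
  refine ⟨fun h => not_lt.1 fun hlt => ?_, fun h => nsmul_le_nsmul_right h e⟩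
  induction a using WithTop.recTopCoe with
  | top =>
    induction b using WithTop.recTopCoe with
    | top => exact lt_irrefl _ hlt
    | coe b =>
      obtain ⟨k, rfl⟩ := Nat.exists_eq_succ_of_ne_zero he
      rw [succ_nsmul, WithTop.add_top, top_le_iff, ← WithTop.coe_nsmul] at h
      exact WithTop.coe_ne_top h
  | coe a =>
    induction b using WithTop.recTopCoe with
    | top => exact absurd le_top hlt.not_ge
    | coe b =>
      rw [WithTop.coe_lt_coe] at hlt
      rw [← WithTop.coe_nsmul, ← WithTop.coe_nsmul, WithTop.coe_le_coe, nsmul_eq_mul,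
        nsmul_eq_mul] at h
      exact absurd h (not_le.2 (mul_lt_mul_of_pos_left hlt (by exact_mod_cast he.bot_lt)))

/-- The inertia group with a chosen uniformizer. -/
def inertiaSetting [Finite G] (v : AddValuation L (WithTop ℤ))
    (hv : ∀ (g : G) (x : L), v (g • x) = v x)
    (hperf : ∀ p : ℕ, p.Prime → 0 < v (p : L) → ∀ x, 0 ≤ v x → ∃ y, 0 < v (x - y ^ p)) (π : L)
    (hπ : v π = ((1 : ℤ) : WithTop ℤ)) : TotallyRamified (lowerGroup v hv 0) L where
  v := v
  smul_v g x := hv g x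
  π := π
  v_π := hπ
  rep _ hx := exists_fixed_rep v (G := lowerGroup v hv 0) (fun g y => hv g y)
    (fun g y hy => (mem_lowerGroup_zero_iff hv _).1 g.2 y hy) hperf hx.ge

namespace TotallyRamified

variable (T : TotallyRamified G L)

theorem eq_one_of_ij_eq_top [FaithfulSMul G L] {g : G} (hg : T.ij g = ⊤) : g = 1 := by
  refine eq_of_smul_eq_smul (α := L) fun x => ?_
  have hint : ∀ y : L, 0 ≤ T.v y → g • y = y := fun y hy => by
    have h := T.ij_le_v_smul_sub g hy
    rw [hg, top_le_iff, AddValuation.top_iff, sub_eq_zero] at h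
    exact h
  rw [one_smul]
  rcases le_total 0 (T.v x) with hx | hx
  · exact hint x hx
  · have h0 : 0 ≤ T.v x⁻¹ := by
      rw [AddValuation.map_inv]
      revert hx
      generalize T.v x = q
      induction q using WithTop.recTopCoe with
      | top => exact fun _ => le_top
      | coe q =>
        intro hx
        rw [← WithTop.coe_zero, WithTop.coe_le_coe] at hx
        rw [← WithTop.LinearOrderedAddCommGroup.coe_neg, ← WithTop.coe_zero, WithTop.coe_le_coe]
        omega
    have := hint _ h0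
    rwa [smul_inv'', inv_inj] at this

/-- An element maximal in its coset gives the minima. -/
theorem ij_mul_eq_min {g h : G} (hmax : T.ij (g * h) ≤ T.ij g) :
    T.ij (g * h) = min (T.ij g) (T.ij h) := by
  refine le_antisymm (le_min hmax ?_) (T.min_ij_le_ij_mul g h)
  have h1 := T.min_ij_le_ij_mul g⁻¹ (g * h)
  rwa [inv_mul_cancel_left, ij_inv, min_eq_right hmax] at h1

end TotallyRamified

theorem min_coe_add_one {a : ℤ} (x : WithTop ℤ) :
    min ((a + 1 : ℤ) : WithTop ℤ) x =
      min (a : WithTop ℤ) x + (if ((a + 1 : ℤ) : WithTop ℤ) ≤ x then ((1 : ℤ) : WithTop ℤ)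
        else ((0 : ℤ) : WithTop ℤ)) := by
  induction x using WithTop.recTopCoe with
  | top => simp
  | coe b =>
    simp only [← WithTop.coe_min, WithTop.coe_le_coe]
    split_ifs with h <;> rw [← WithTop.coe_add, WithTop.coe_eq_coe] <;> omega

variable [Finite G] (v : AddValuation L (WithTop ℤ)) (hv : ∀ (g : G) (x : L), v (g • x) = v x)

omit [Finite G] in
/-- `φ` as a sum of clamped linear functions. -/
theorem herbrandPhi_eq_sum_range {N : ℕ} {x : ℝ} (hN : x ≤ N) :
    herbrandPhi v hv x =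
      ∑ i ∈ Finset.range N, (min x (i + 1) - min x i) * slope v hv i := by
  rw [herbrandPhi, ← Finset.sum_subset (Finset.range_mono (Nat.ceil_le.2 hN)) fun i _ hi => ?_]
  · refine Finset.sum_congr rfl fun i hi => ?_
    have h1 : (i : ℝ) < x := Nat.lt_ceil.1 (Finset.mem_range.1 hi)
    rw [slope, min_eq_right h1.le, ← min_sub_sub_right, add_sub_cancel_left, min_comm]
  · have h1 : x ≤ i := Nat.ceil_le.1 (not_lt.1 (mt Finset.mem_range.2 hi))
    rw [min_eq_left h1, min_eq_left (h1.trans (by linarith)), sub_self, zero_mul]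

omit [Finite G] in
/-- `φ` is linear where the lower groups are constant. -/
theorem herbrandPhi_sub_eq_mul {a b : ℝ} (ha : 0 ≤ a) (hab : a ≤ b) {s : ℝ}
    (hs : ∀ t, a < t → t ≤ b →
      (Nat.card (lowerGroupReal v hv t) : ℝ) / Nat.card (lowerGroup v hv 0) = s) :
    herbrandPhi v hv b - herbrandPhi v hv a = (b - a) * s := by
  rcases hab.eq_or_lt with rfl | hab'
  · rw [sub_self, sub_self, zero_mul]
  have hb := Nat.le_ceil b
  have htel : ∀ x : ℝ, 0 ≤ x → x ≤ ⌈b⌉₊ →
      ∑ i ∈ Finset.range ⌈b⌉₊, (min x ((i : ℝ) + 1) - min x i) = x := fun x h0 hx => by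
    have h1 := Finset.sum_range_sub (fun i : ℕ => min x (i : ℝ)) ⌈b⌉₊
    push_cast at h1
    rw [h1, min_eq_left hx, min_eq_right h0, sub_zero]
  rw [herbrandPhi_eq_sum_range v hv (hab.trans hb),
    herbrandPhi_eq_sum_range v hv hb, ← Finset.sum_sub_distrib]
  conv_rhs => rw [← htel b (ha.trans hab) hb, ← htel a ha (hab.trans hb), ← Finset.sum_sub_distrib,
    Finset.sum_mul]
  refine Finset.sum_congr rfl fun i _ => ?_
  rw [← sub_mul]
  by_cases hc : a < (i : ℝ) + 1 ∧ (i : ℝ) < b
  · congr 1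
    have h1 : ⌈min b ((i : ℝ) + 1)⌉₊ = i + 1 := (Nat.ceil_eq_iff i.succ_ne_zero).2
      ⟨by simpa using hc.2, by simp⟩
    have h2 : a < min b ((i : ℝ) + 1) := by
      exact lt_min hab' hc.1
    rw [← hs _ h2 (min_le_left _ _), lowerGroupReal, h1, slope]
  · have h0 : min b ((i : ℝ) + 1) - min b i - (min a ((i : ℝ) + 1) - min a i) = 0 := by
      rw [not_and_or, not_lt, not_lt] at hc
      rcases hc with h | h
      · rw [min_eq_right h, min_eq_right (h.trans hab), min_eq_right (by linarith),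
          min_eq_right (by linarith)]
        ring
      · rw [min_eq_left h, min_eq_left (h.trans (by linarith)), min_eq_left (hab.trans h),
          min_eq_left ((hab.trans h).trans (by linarith))]
        ring
    rw [h0, zero_mul, zero_mul]

variable (H : Subgroup G) [H.Normal]

omit [Finite G] in
theorem card_map_mk_mul_card_inf (K : Subgroup G) :
    Nat.card (K.map (QuotientGroup.mk' H)) * Nat.card (K ⊓ H : Subgroup G) = Nat.card K := by
  set f := (QuotientGroup.mk' H).comp K.subtype with hf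
  have h1 : Nat.card f.range = Nat.card (K ⧸ f.ker) :=
    (Nat.card_congr (QuotientGroup.quotientKerEquivRange f).toEquiv).symm
  have h2 : f.range = K.map (QuotientGroup.mk' H) := by
    rw [hf, MonoidHom.range_comp, Subgroup.range_subtype]
  have h3 : Nat.card f.ker = Nat.card (K ⊓ H : Subgroup G) := Nat.card_congr
    { toFun := fun x => ⟨(x.1 : G), x.1.2, (QuotientGroup.eq_one_iff _).1 x.2⟩
      invFun := fun x => ⟨⟨x.1, x.2.1⟩, (QuotientGroup.eq_one_iff _).2 x.2.2⟩
      left_inv := fun _ => rfl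
      right_inv := fun _ => rfl }
  rw [← h2, h1, ← h3, ← Subgroup.card_eq_card_quotient_mul_card_subgroup]

omit [Finite G] [H.Normal] in
theorem card_lowerGroup_subgroup (i : ℕ) :
    Nat.card (lowerGroup v (fun (h : H) x => hv (h : G) x) i) =
      Nat.card (lowerGroup v hv i ⊓ H : Subgroup G) :=
  Nat.card_congr
    { toFun := fun x => ⟨((x.1 : H) : G), x.2, x.1.2⟩
      invFun := fun x => ⟨⟨x.1, x.2.2⟩, x.2.1⟩
      left_inv := fun _ => rfl
      right_inv := fun _ => rfl }

variable [FaithfulSMul G L] (hπ : ∃ π : L, v π = ((1 : ℤ) : WithTop ℤ))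
  (hperf : ∀ p : ℕ, p.Prime → 0 < v (p : L) → ∀ x, 0 ≤ v x → ∃ y, 0 < v (x - y ^ p))
  (v' : AddValuation (FixedPoints.subfield H L) (WithTop ℤ))
  (hv' : ∀ (σ : G ⧸ H) (x : FixedPoints.subfield H L), v' (σ • x) = v' x)
  {e : ℕ} (he : ∀ x : FixedPoints.subfield H L, v (x : L) = e • v' x)
  (hπ' : ∃ x, v' x = ((1 : ℤ) : WithTop ℤ))

include hπ hperf he hπ' in
/-- The lower groups of the quotient are the images of those of the group. -/
theorem lowerGroupReal_quotient {u : ℝ} (hu : 0 ≤ u) :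
    lowerGroupReal v' hv' (herbrandPhi v (fun (h : H) x => hv (h : G) x) u) =
      (lowerGroupReal v hv u).map (QuotientGroup.mk' H) := by
  classical
  obtain ⟨π, hπ⟩ := hπ
  obtain ⟨ϖ, hϖ⟩ := hπ'
  set hvH : ∀ (h : H) (x : L), v (h • x) = v x := fun h x => hv (h : G) x with hhvH
  set G₀ := lowerGroup v hv 0 with hG₀
  set T := inertiaSetting v hv hperf π hπ with hT
  set H₀ : Subgroup G₀ := H.subgroupOf G₀ with hH₀
  have : Fintype H₀ := Fintype.ofFinite _
  have : Fintype G₀ := Fintype.ofFinite _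
  have hfaith : ∀ g : G₀, T.ij g = ⊤ → g = 1 := fun g => T.eq_one_of_ij_eq_top
  have hfaith₀ : ∀ k : H₀, T.ij (k : G₀) = ⊤ → k = 1 := fun k hk => Subtype.ext (hfaith _ hk)
  have he0 : e ≠ 0 := fun h => by
    have := he 0
    rw [h, zero_smul, ZeroMemClass.coe_zero, AddValuation.map_zero] at this
    exact WithTop.top_ne_coe this
  have hmemF : ∀ x : FixedPoints.subfield H L, (x : L) ∈ FixedPoints.subfield H₀ L :=
    fun x k => x.2 ⟨((k : G₀) : G), k.2⟩
  -- the ramification index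
  have hvϖ : v (ϖ : L) = ((e : ℤ) : WithTop ℤ) := by
    rw [he, hϖ, ← WithTop.coe_nsmul, nsmul_eq_mul, mul_one]
  have he' : e = Fintype.card H₀ := by
    refine Nat.dvd_antisymm ?_ (Int.natCast_dvd_natCast.1 (T.card_dvd_of_mem hfaith₀ (hmemF ϖ) hvϖ))
    obtain ⟨y, hy, hvy⟩ := exists_fixed_val_eq hv ⟨π, hπ⟩ hperf H
    have h1 : Nat.card ((lowerGroup v hv 0).subgroupOf H) = Fintype.card H₀ := by
      rw [← Nat.card_eq_fintype_card]
      exact Nat.card_congr
        { toFun := fun x => ⟨⟨((x.1 : H) : G), x.2⟩, x.1.2⟩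
          invFun := fun x => ⟨⟨((x.1 : G₀) : G), x.2⟩, x.1.2⟩
          left_inv := fun _ => rfl
          right_inv := fun _ => rfl }
    have h2 := he ⟨y, hy⟩
    rw [hvy, h1] at h2
    revert h2
    generalize v' ⟨y, hy⟩ = q
    induction q using WithTop.recTopCoe with
    | top =>
      obtain ⟨k, rfl⟩ := Nat.exists_eq_succ_of_ne_zero he0
      simp [succ_nsmul]
    | coe q =>
      intro h2
      rw [← WithTop.coe_nsmul, WithTop.coe_eq_coe, nsmul_eq_mul] at h2
      exact Int.natCast_dvd_natCast.1 ⟨q, h2⟩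
  -- Herbrand's lemma at the uniformizer of the quotient
  have hA : ∀ g : G₀, v ((g : G) • (ϖ : L) - ϖ) = ∑ k : H₀, T.ij (g * k) := fun g => by
    rw [← T.v_smul_sub_normπ_eq hfaith₀ g]
    set π₁ := T.normπ H₀ with hπ₁
    have hvπ₁ : v π₁ = ((e : ℤ) : WithTop ℤ) := (T.v_normπ H₀).trans (by rw [he'])
    have hne : π₁ ≠ 0 := fun h => WithTop.coe_ne_top (a := (e : ℤ))
      (by rw [← hvπ₁, h, AddValuation.map_zero])
    refine le_antisymm ?_ (T.v_smul_sub_normπ_le hfaith₀ g (hmemF ϖ)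
      (hvϖ.ge.trans' (WithTop.coe_le_coe.2 (Int.natCast_nonneg e))))
    set A := T.v (g • π₁ - π₁) with hAdef
    rcases eq_or_ne A ⊤ with hAt | hAt
    · rw [hAt]; exact le_top
    set c := (ϖ : L) / π₁ with hc
    have hvc : v c = ((0 : ℤ) : WithTop ℤ) := by
      rw [hc, AddValuation.map_div, hvϖ, hvπ₁, ← WithTop.LinearOrderedAddCommGroup.coe_sub,
        sub_self]
    have h1 : A ≤ v ((g : G) • c - c) :=
      T.v_smul_sub_normπ_le hfaith₀ g (div_mem (hmemF ϖ) (T.normπ_mem H₀)) hvc.ge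
    have e1 : (g : G) • (ϖ : L) - ϖ =
        (g : G) • c * ((g : G) • π₁ - π₁) + ((g : G) • c - c) * π₁ := by
      have h : (ϖ : L) = c * π₁ := (div_mul_cancel₀ _ hne).symm
      rw [h, smul_mul']; ring
    have h2 : v ((g : G) • c * ((g : G) • π₁ - π₁)) = A := by
      rw [AddValuation.map_mul, hv, hvc]
      exact zero_add _
    rw [e1, AddValuation.map_add_eq_of_lt_left, h2]
    rw [h2, AddValuation.map_mul, hvπ₁]
    refine lt_of_lt_of_le ?_ (add_le_add h1 le_rfl)
    obtain ⟨a, ha⟩ := WithTop.ne_top_iff_exists.1 hAt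
    rw [← ha, ← WithTop.coe_add, WithTop.coe_lt_coe]
    omega
  have hmemq : ∀ (g : G₀) (n : ℕ), ((g : G) : G ⧸ H) ∈ lowerGroup v' hv' n ↔
      e • (((n + 1 : ℕ) : ℤ) : WithTop ℤ) ≤ ∑ k : H₀, T.ij (g * k) := fun g n => by
    constructor
    · intro h
      have h1 := h ϖ (by rw [hϖ]; exact WithTop.coe_le_coe.2 zero_le_one)
      rw [← hA, ← coe_quotient_smul, ← AddSubgroupClass.coe_sub, he]
      exact (withTop_nsmul_le he0).2 h1
    · intro h x hx
      refine (withTop_nsmul_le he0).1 ?_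
      rw [← he, AddSubgroupClass.coe_sub, coe_quotient_smul]
      have hx0 : 0 ≤ v (x : L) := by rw [he]; exact nsmul_nonneg hx e
      refine le_trans h ?_
      rw [← T.v_smul_sub_normπ_eq hfaith₀ g]
      exact T.v_smul_sub_normπ_le hfaith₀ g (hmemF x) hx0
  -- counting
  have hmem : ∀ (g : G₀) (i : ℕ),
      ((g : G) ∈ lowerGroup v hv i ↔ (((i + 1 : ℕ) : ℤ) : WithTop ℤ) ≤ T.ij g) := fun g i =>
    ⟨fun h => h π (le_trans (WithTop.coe_le_coe.2 zero_le_one) hπ.ge),
      fun h x hx => le_trans h (T.ij_le_v_smul_sub g hx)⟩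
  set c : ℕ → ℕ := fun i => Nat.card (lowerGroup v hvH i) with hc
  have hcount : ∀ i : ℕ, c i =
      (Finset.univ.filter fun k : H₀ => (((i + 1 : ℕ) : ℤ) : WithTop ℤ) ≤ T.ij (k : G₀)).card :=
    fun i => by
      rw [← Fintype.card_subtype, ← Nat.card_eq_fintype_card]
      exact Nat.card_congr
        { toFun := fun x => ⟨⟨⟨((x.1 : H) : G),
            lowerGroup_antitone v hv (Nat.zero_le i) (show ((x.1 : H) : G) ∈ lowerGroup v hv i
              from x.2)⟩, x.1.2⟩, (hmem _ i).1 x.2⟩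
          invFun := fun x => ⟨⟨((x.1 : G₀) : G), x.1.2⟩, (hmem (x.1 : G₀) i).2 x.2⟩
          left_inv := fun _ => rfl
          right_inv := fun _ => rfl }
  have hc0 : c 0 = e := by
    rw [hcount, he', Finset.filter_true_of_mem fun k _ => ?_, Finset.card_univ]
    exact T.one_le_ij _
  have hS : ∀ m : ℕ, ∑ k : H₀, min (((m + 1 : ℕ) : ℤ) : WithTop ℤ) (T.ij (k : G₀)) =
      (((∑ i ∈ Finset.range (m + 1), c i : ℕ) : ℤ) : WithTop ℤ) := fun m => by
    induction m with
    | zero =>
      have h1 : ∀ k : H₀, min (((0 + 1 : ℕ) : ℤ) : WithTop ℤ) (T.ij (k : G₀)) =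
          ((1 : ℤ) : WithTop ℤ) := fun k => min_eq_left (T.one_le_ij _)
      simp only [h1, Finset.sum_const, Finset.card_univ, zero_add, Finset.sum_range_one, hc0, he',
        ← WithTop.coe_nsmul, nsmul_eq_mul, mul_one]
    | succ m ih =>
      have h1 : ∀ k : H₀, min (((m + 1 + 1 : ℕ) : ℤ) : WithTop ℤ) (T.ij (k : G₀)) =
          min (((m + 1 : ℕ) : ℤ) : WithTop ℤ) (T.ij (k : G₀)) +
            (((if (((m + 1 + 1 : ℕ) : ℤ) : WithTop ℤ) ≤ T.ij (k : G₀) then 1 else 0 : ℕ) : ℤ) :
              WithTop ℤ) := fun k => by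
        rw [show ((m + 1 + 1 : ℕ) : ℤ) = ((m + 1 : ℕ) : ℤ) + 1 by push_cast; ring,
          min_coe_add_one]
        split_ifs <;> rfl
      simp only [h1, Finset.sum_add_distrib, ih]
      rw [Finset.sum_range_succ _ (m + 1), hcount, Finset.card_filter]
      simp only [Nat.cast_add, Nat.cast_sum, WithTop.coe_add, WithTop.coe_sum]
  have hφnat : ∀ m : ℕ, (e : ℝ) * (herbrandPhi v hvH m + 1) =
      ((∑ i ∈ Finset.range (m + 1), c i : ℕ) : ℝ) := fun m => by
    rw [herbrandPhi_natCast, Finset.sum_range_succ', hc0, ← hc0]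
    simp only [slope]
    change ((c 0 : ℕ) : ℝ) * (∑ i ∈ Finset.range m, (c (i + 1) : ℝ) / (c 0 : ℝ) + 1) = _
    have h0 : (c 0 : ℝ) ≠ 0 := by rw [hc0]; exact_mod_cast he0
    push_cast
    rw [← Finset.sum_div]
    field_simp
  set t := herbrandPhi v hvH u with ht
  -- the membership for a maximal element of a coset
  have key : ∀ (g : G₀) (m : ℕ), T.ij g = (((m + 1 : ℕ) : ℤ) : WithTop ℤ) →
      (∀ k : H₀, T.ij (g * k) ≤ T.ij g) →
      (((g : G) : G ⧸ H) ∈ lowerGroupReal v' hv' t ↔ (g : G) ∈ lowerGroupReal v hv u) := by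
    intro g m hm hmax
    set S := ∑ i ∈ Finset.range (m + 1), c i with hS'
    have hsum : ∑ k : H₀, T.ij (g * k) = ((S : ℤ) : WithTop ℤ) := by
      rw [Finset.sum_congr rfl fun (k : H₀) (_ : k ∈ Finset.univ) => T.ij_mul_eq_min (hmax k), hm,
        hS]
    obtain ⟨a, ha⟩ : ∃ a : ℕ, S = e * (a + 1) := by
      have hSe : e ≤ S := by
        rw [hS', Finset.sum_range_succ', hc0]; omega
      have hd : ∃ z : WithTop ℤ, ((S : ℤ) : WithTop ℤ) = e • z :=
        ⟨v' (((g : G) : G ⧸ H) • ϖ - ϖ), by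
          rw [← hsum, ← hA, ← coe_quotient_smul, ← AddSubgroupClass.coe_sub, he]⟩
      obtain ⟨z, hz⟩ := hd
      obtain ⟨k, hk⟩ : e ∣ S := by
        induction z using WithTop.recTopCoe with
        | top =>
          obtain ⟨k, rfl⟩ := Nat.exists_eq_succ_of_ne_zero he0
          simp [succ_nsmul] at hz
        | coe z =>
          rw [← WithTop.coe_nsmul, WithTop.coe_eq_coe, nsmul_eq_mul] at hz
          exact Int.natCast_dvd_natCast.1 ⟨z, hz⟩
      rcases k with _ | k
      · omega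
      · exact ⟨k, hk⟩
    have hφm : herbrandPhi v hvH m = a := by
      have h1 := hφnat m
      rw [← hS', ha] at h1
      push_cast at h1
      have := mul_left_cancel₀ (show (e : ℝ) ≠ 0 by exact_mod_cast he0) h1
      linarith
    rw [lowerGroupReal, lowerGroupReal, hmemq, hsum, hmem, hm, ← WithTop.coe_nsmul,
      WithTop.coe_le_coe, WithTop.coe_le_coe, nsmul_eq_mul, ha]
    push_cast
    rw [mul_le_mul_iff_right₀ (by exact_mod_cast he0.bot_lt : (0 : ℤ) < (e : ℤ)),
      add_le_add_iff_right, add_le_add_iff_right, Nat.cast_le, Nat.cast_le, Nat.ceil_le, Nat.ceil_le, ← hφm]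
    refine ⟨fun h => not_lt.1 fun hlt => ?_, fun h => ?_⟩
    · exact absurd h (not_le.2 (herbrandPhi_lt v hvH (Nat.cast_nonneg m) hlt))
    · rcases h.eq_or_lt with h | h
      · rw [ht, h]
      · exact (herbrandPhi_lt v hvH hu h).le
  ext σ
  constructor
  · intro hσ
    obtain ⟨g₁, rfl⟩ := QuotientGroup.mk_surjective σ
    obtain ⟨h, hh⟩ := exists_smulResidue_eq hv H (g := g₁) fun x hx hx0 => by
      have h1 := lowerGroup_antitone v' hv' (Nat.zero_le _) hσ ⟨x, hx⟩
      have hv0 : 0 ≤ v' ⟨x, hx⟩ := (withTop_nsmul_le he0).1 (by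
        rw [smul_zero, ← he]; exact hx0)
      have h2 := (withTop_nsmul_le he0).2 (h1 hv0)
      rw [← he, AddSubgroupClass.coe_sub, coe_quotient_smul, ← WithTop.coe_nsmul,
        nsmul_eq_mul] at h2
      refine lt_of_lt_of_le (WithTop.coe_lt_coe.2 (show (0 : ℤ) < _ from ?_)) h2
      push_cast
      have : (0 : ℤ) < e := by exact_mod_cast he0.bot_lt
      omega
    have hg₂ : (h : G)⁻¹ * g₁ ∈ G₀ := inv_mul_mem_lowerGroup_zero hv hh
    have hq : (((h : G)⁻¹ * g₁ : G) : G ⧸ H) = (g₁ : G ⧸ H) := by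
      rw [QuotientGroup.mk_mul, (QuotientGroup.eq_one_iff _).2 (inv_mem h.2), one_mul]
    rw [← hq] at hσ ⊢
    set σ := (((h : G)⁻¹ * g₁ : G) : G ⧸ H) with hσdef
    obtain ⟨g, hg, hmax⟩ := Finset.exists_max_image
      (Finset.univ.filter fun x : G₀ => ((x : G) : G ⧸ H) = σ) (fun x => T.ij x)
      ⟨⟨_, hg₂⟩, by simp [hσdef]⟩
    rw [Finset.mem_filter] at hg
    by_cases htop : T.ij g = ⊤
    · rw [← hg.2, hfaith g htop, Subgroup.coe_one]
      exact ⟨1, one_mem _, rfl⟩
    obtain ⟨j, hj⟩ := WithTop.ne_top_iff_exists.1 htop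
    have hj1 : 1 ≤ j := WithTop.coe_le_coe.1 (by rw [hj]; exact T.one_le_ij g)
    refine ⟨g, (key g (j - 1).toNat (by rw [← hj]; congr 1; omega) fun k => hmax _ ?_).1
      (hg.2 ▸ hσ), hg.2⟩
    rw [Finset.mem_filter, ← hg.2, Subgroup.coe_mul, QuotientGroup.mk_mul,
      (QuotientGroup.eq_one_iff ((k : G₀) : G)).2 k.2, mul_one]
    exact ⟨Finset.mem_univ _, rfl⟩
  · rintro ⟨g₁, hg₁, rfl⟩
    have hg₀ : g₁ ∈ G₀ := lowerGroup_antitone v hv (Nat.zero_le _) hg₁
    obtain ⟨g, hg, hmax⟩ := Finset.exists_max_image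
      (Finset.univ.filter fun x : G₀ => ((x : G) : G ⧸ H) = (g₁ : G ⧸ H)) (fun x => T.ij x)
      ⟨⟨g₁, hg₀⟩, by simp⟩
    rw [Finset.mem_filter] at hg
    change (g₁ : G ⧸ H) ∈ _
    rw [← hg.2]
    by_cases htop : T.ij g = ⊤
    · rw [hfaith g htop, Subgroup.coe_one, QuotientGroup.mk_one]
      exact one_mem _
    obtain ⟨j, hj⟩ := WithTop.ne_top_iff_exists.1 htop
    have hj1 : 1 ≤ j := WithTop.coe_le_coe.1 (by rw [hj]; exact T.one_le_ij g)
    refine (key g (j - 1).toNat (by rw [← hj]; congr 1; omega) fun k => hmax _ ?_).2 ?_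
    · rw [Finset.mem_filter, ← hg.2, Subgroup.coe_mul, QuotientGroup.mk_mul,
        (QuotientGroup.eq_one_iff ((k : G₀) : G)).2 k.2, mul_one]
      exact ⟨Finset.mem_univ _, rfl⟩
    · exact (hmem g _).2 (le_trans ((hmem ⟨g₁, hg₀⟩ _).1 hg₁)
        (hmax _ (by simp)))

include hπ hperf he hπ' in
/-- Transitivity of Herbrand's function. -/
theorem herbrandPhi_comp {u : ℝ} (hu : 0 ≤ u) :
    herbrandPhi v' hv' (herbrandPhi v (fun (h : H) x => hv (h : G) x) u) =
      herbrandPhi v hv u := by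
  set hvH : ∀ (h : H) (x : L), v (h • x) = v x := fun h x => hv (h : G) x with hhvH
  have hzero : herbrandPhi v hvH ((0 : ℕ) : ℝ) = 0 := by
    rw [herbrandPhi_natCast, Finset.sum_range_zero]
  have hmono : ∀ a b : ℝ, 0 ≤ a → a ≤ b → herbrandPhi v hvH a ≤ herbrandPhi v hvH b :=
    fun a b ha hab => hab.eq_or_lt.elim (fun h => h ▸ le_rfl)
      fun h => (herbrandPhi_lt v hvH ha h).le
  have hstep : ∀ (n : ℕ) (x : ℝ), (n : ℝ) ≤ x → x ≤ n + 1 →
      herbrandPhi v' hv' (herbrandPhi v hvH x) - herbrandPhi v' hv' (herbrandPhi v hvH n) =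
        herbrandPhi v hv x - herbrandPhi v hv n := by
    intro n x h1 h2
    have h0 : (0 : ℝ) ≤ herbrandPhi v hvH n := by
      rw [← hzero]
      exact herbrandPhi_natCast_mono v hvH (Nat.zero_le n)
    rw [herbrandPhi_sub_eq_mul v' hv' h0 (hmono _ _ (Nat.cast_nonneg n) h1)
        (s := (Nat.card ((lowerGroup v hv (n + 1)).map (QuotientGroup.mk' H)) : ℝ) /
          Nat.card ((lowerGroup v hv 0).map (QuotientGroup.mk' H))) ?_,
      herbrandPhi_eq v hvH h1 h2, herbrandPhi_eq v hv h1 h2, add_sub_cancel_left,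
      add_sub_cancel_left, mul_assoc]
    · congr 1
      have hk := fun i => card_map_mk_mul_card_inf H (lowerGroup v hv i)
      simp only [slope]
      rw [card_lowerGroup_subgroup v hv H, card_lowerGroup_subgroup v hv H, ← hk (n + 1), ← hk 0]
      push_cast
      ring
    · intro s hs1 hs2
      obtain ⟨y, hy0, rfl⟩ := exists_herbrandPhi_eq v hvH (h0.trans hs1.le)
      have hy1 : (n : ℝ) < y := not_le.1 fun h => absurd hs1 (not_lt.2 (hmono _ _ hy0 h))
      have hy2 : y ≤ x := not_lt.1 fun h =>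
        absurd hs2 (not_le.2 (herbrandPhi_lt v hvH ((Nat.cast_nonneg n).trans h1) h))
      have hceil : ⌈y⌉₊ = n + 1 := (Nat.ceil_eq_iff n.succ_ne_zero).2
        ⟨by simpa using hy1, by simpa using hy2.trans h2⟩
      have h00 := lowerGroupReal_quotient v hv H hπ hperf v' hv' he hπ' (u := ((0 : ℕ) : ℝ))
        (Nat.cast_nonneg 0)
      rw [hzero, lowerGroupReal, lowerGroupReal, Nat.ceil_zero, Nat.ceil_natCast] at h00
      rw [lowerGroupReal_quotient v hv H hπ hperf v' hv' he hπ' hy0, h00, lowerGroupReal, hceil]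
  have hnat : ∀ n : ℕ, herbrandPhi v' hv' (herbrandPhi v hvH n) = herbrandPhi v hv n := fun n => by
    induction n with
    | zero =>
      rw [hzero, show (0 : ℝ) = ((0 : ℕ) : ℝ) by norm_num, herbrandPhi_natCast,
        herbrandPhi_natCast, Finset.sum_range_zero, Finset.sum_range_zero]
    | succ n ih =>
      have h := hstep n ((n + 1 : ℕ) : ℝ) (by simp) (by simp)
      linarith
  have h := hstep ⌊u⌋₊ u (Nat.floor_le hu) (Nat.lt_floor_add_one u).le
  linarith [hnat ⌊u⌋₊]

include hπ hperf he hπ' in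
/-- **Herbrand's theorem**: the upper numbering passes to quotients. -/
theorem upperGroup_quotient {w : ℝ} (hw : 0 ≤ w) :
    upperGroup v' hv' w = (upperGroup v hv w).map (QuotientGroup.mk' H) := by
  obtain ⟨u, hu, rfl⟩ := exists_herbrandPhi_eq v hv hw
  set hvH : ∀ (h : H) (x : L), v (h • x) = v x := fun h x => hv (h : G) x with hhvH
  have h0 : (0 : ℝ) ≤ herbrandPhi v hvH u := by
    rcases hu.eq_or_lt with h | h
    · rw [← h]; simp [herbrandPhi]
    · refine le_trans (le_of_eq ?_) (herbrandPhi_lt v hvH le_rfl h).le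
      simp [herbrandPhi]
  rw [upperGroup_herbrandPhi v hv hu, ← lowerGroupReal_quotient v hv H hπ hperf v' hv' he hπ' hu,
    ← herbrandPhi_comp v hv H hπ hperf v' hv' he hπ' hu, upperGroup_herbrandPhi v' hv' h0]

omit [H.Normal] in
include hv hπ hperf in
/-- The normalized valuation of the fixed field. -/
theorem exists_fixed_valuation :
    ∃ (w : AddValuation (FixedPoints.subfield H L) (WithTop ℤ)) (d : ℕ),
      (∀ x : FixedPoints.subfield H L, v (x : L) = d • w x) ∧
      ∃ x, w x = ((1 : ℤ) : WithTop ℤ) := by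
  classical
  obtain ⟨π, hπ⟩ := hπ
  set T := inertiaSetting v hv hperf π hπ with hT
  set H₀ : Subgroup (lowerGroup v hv 0) := H.subgroupOf (lowerGroup v hv 0) with hH₀
  have : Fintype H₀ := Fintype.ofFinite _
  have hfaith₀ : ∀ k : H₀, T.ij (k : lowerGroup v hv 0) = ⊤ → k = 1 :=
    fun k hk => Subtype.ext (T.eq_one_of_ij_eq_top hk)
  have hle : FixedPoints.subfield H L ≤ FixedPoints.subfield H₀ L :=
    fun x hx k => hx ⟨((k : lowerGroup v hv 0) : G), k.2⟩
  refine ⟨(T.quotVal hfaith₀).comap (Subfield.inclusion hle), Fintype.card H₀, fun x => ?_, ?_⟩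
  · change T.v (x : L) = _
    rw [show (x : L) = ((Subfield.inclusion hle x : FixedPoints.subfield H₀ L) : L) from rfl,
      T.v_coe_eq hfaith₀]
    change _ = Fintype.card H₀ • T.quotVal hfaith₀ (Subfield.inclusion hle x)
    generalize T.quotVal hfaith₀ (Subfield.inclusion hle x) = q
    induction q using WithTop.recTopCoe with
    | top =>
      obtain ⟨k, hk⟩ := Nat.exists_eq_succ_of_ne_zero (Fintype.card_ne_zero (α := H₀))
      rw [hk, succ_nsmul, WithTop.add_top, WithTop.map_top]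
    | coe q => rw [WithTop.map_coe, ← WithTop.coe_nsmul, nsmul_eq_mul]
  · obtain ⟨y, hy, hvy⟩ := exists_fixed_val_eq hv ⟨π, hπ⟩ hperf H
    refine ⟨⟨y, hy⟩, ?_⟩
    change (T.v y).map _ = _
    rw [show T.v y = v y from rfl]
    rw [hvy, WithTop.map_coe, WithTop.coe_eq_coe]
    have h1 : Nat.card ((lowerGroup v hv 0).subgroupOf H) = Fintype.card H₀ := by
      rw [← Nat.card_eq_fintype_card]
      exact Nat.card_congr
        { toFun := fun x => ⟨⟨((x.1 : H) : G), x.2⟩, x.1.2⟩
          invFun := fun x => ⟨⟨((x.1 : lowerGroup v hv 0) : G), x.2⟩, x.1.2⟩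
          left_inv := fun _ => rfl
          right_inv := fun _ => rfl }
    rw [h1, Int.ediv_self (Nat.cast_ne_zero.2 Fintype.card_ne_zero)]

end Fermat.Agent.HasseArf
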